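import Mathlib
import Fermat.Agent.LT.H129.HeckeA0

/-!
# Row LT, tower T7, leaf T7.L2.3.5.3 `SD534.OpsClassC` (helper468): the Iwahori subgroup, locally

OFF-MAIN.  `F = K_v`, valuation `Valued.v`.  Local algebra in `GL₂(F)`:

* `IwL468 v A`  : `A` lies in the Iwahori subgroup `I` (entries of `A`, `A⁻¹` integral, lower left
  entry in the maximal ideal); `I` is a group.
* `StdL468 v M` : the shape of the elements of `I diag(ϖ, 1) I` (integral, first column in the
  maximal ideal, `M₁₁` a unit, `det M` a uniformiser); stable under `I` on both sides.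
* `iwL_inv_mul468` : `M⁻¹ M' ∈ I` if `M, M'` have this shape and `M₁₁ M'₀₁ ≡ M₀₁ M'₁₁`.
* `lamL468`     : the invariant `M₀₁ / M₁₁ mod 𝔭` in the residue field.
-/

set_option autoImplicit false
set_option linter.unusedSectionVars false
set_option linter.style.haveILetI false

open IsDedekindDomain NumberField Matrix

noncomputable section

namespace Fermat.Agent.LT.T7.H468

variable {K : Type} [Field K] [NumberField K] (v : HeightOneSpectrum (𝓞 K))

/-! ## Valuations in `ℤᵐ⁰` -/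

theorem le_exp_neg_one468 {y : WithZero (Multiplicative ℤ)} (hy : y < 1) :
    y ≤ WithZero.exp (-1 : ℤ) :=
  Fermat.Agent.LT.H129.withZero_le_exp_neg_one129 hy

theorem exp_neg_one_lt_one468 : (WithZero.exp (-1 : ℤ) : WithZero (Multiplicative ℤ)) < 1 := by
  rw [← WithZero.exp_zero, WithZero.exp_lt_exp]
  norm_num

theorem val_eq_one_of_mul468 {x y : WithZero (Multiplicative ℤ)} (hx : x ≤ 1) (hy : y ≤ 1)
    (h : x * y = 1) : x = 1 := by
  refine le_antisymm hx ?_
  by_contra hlt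
  rw [not_le] at hlt
  have hy0 : y ≠ 0 := by
    rintro rfl
    simp at h
  have : x * y < 1 := by
    calc x * y < 1 * y := by
          exact mul_lt_mul_of_pos_right hlt (zero_lt_iff.2 hy0)
      _ = y := one_mul y
      _ ≤ 1 := hy
  exact absurd h (ne_of_lt this)

variable {v}

/-- `v(x y) < 1` if `v(x) < 1` and `v(y) ≤ 1`. -/
theorem val_mul_lt468 {x y : v.adicCompletion K} (hx : Valued.v x < 1) (hy : Valued.v y ≤ 1) :
    Valued.v (x * y) < 1 := by
  rw [map_mul]
  calc Valued.v x * Valued.v y ≤ Valued.v x * 1 := mul_le_mul_right hy _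
    _ = Valued.v x := mul_one _
    _ < 1 := hx

theorem val_mul_lt468' {x y : v.adicCompletion K} (hx : Valued.v x ≤ 1) (hy : Valued.v y < 1) :
    Valued.v (x * y) < 1 := by
  rw [mul_comm]
  exact val_mul_lt468 hy hx

theorem val_mul_le468 {x y : v.adicCompletion K} (hx : Valued.v x ≤ 1) (hy : Valued.v y ≤ 1) :
    Valued.v (x * y) ≤ 1 := by
  rw [map_mul]
  exact mul_le_one' hx hy

/-- `v(x + y) = 1` if `v(x) = 1` and `v(y) < 1`. -/
theorem val_add_eq_one468 {x y : v.adicCompletion K} (hx : Valued.v x = 1)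
    (hy : Valued.v y < 1) : Valued.v (x + y) = 1 := by
  rw [Valuation.map_add_eq_of_lt_left _ (by rw [hx]; exact hy), hx]

/-! ## The Iwahori subgroup -/

variable (v)

/-- `A ∈ I`. -/
def IwL468 (A : GL (Fin 2) (v.adicCompletion K)) : Prop :=
  (∀ i j, Valued.v ((A : Matrix (Fin 2) (Fin 2) (v.adicCompletion K)) i j) ≤ 1) ∧
    (∀ i j, Valued.v (((A⁻¹ : GL (Fin 2) (v.adicCompletion K)) :
      Matrix (Fin 2) (Fin 2) (v.adicCompletion K)) i j) ≤ 1) ∧
    Valued.v ((A : Matrix (Fin 2) (Fin 2) (v.adicCompletion K)) 1 0) < 1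

variable {v}

theorem val_det_le468 {A : Matrix (Fin 2) (Fin 2) (v.adicCompletion K)}
    (h : ∀ i j, Valued.v (A i j) ≤ 1) : Valued.v A.det ≤ 1 := by
  rw [Matrix.det_fin_two]
  exact Valuation.map_sub_le _ (val_mul_le468 (h 0 0) (h 1 1)) (val_mul_le468 (h 0 1) (h 1 0))

theorem det_mul_det_inv468 (A : GL (Fin 2) (v.adicCompletion K)) :
    (A : Matrix (Fin 2) (Fin 2) (v.adicCompletion K)).det
      * ((A⁻¹ : GL (Fin 2) (v.adicCompletion K)) :
          Matrix (Fin 2) (Fin 2) (v.adicCompletion K)).det = 1 := by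
  rw [← Matrix.det_mul, ← Matrix.GeneralLinearGroup.coe_mul, mul_inv_cancel]
  simp

theorem IwL468.val_det {A : GL (Fin 2) (v.adicCompletion K)} (h : IwL468 v A) :
    Valued.v (A : Matrix (Fin 2) (Fin 2) (v.adicCompletion K)).det = 1 := by
  refine val_eq_one_of_mul468 (val_det_le468 h.1) (val_det_le468 h.2.1) ?_
  rw [← map_mul, det_mul_det_inv468, map_one]

/-- Integral entries, unit determinant and lower left entry in the maximal ideal. -/
theorem iwL_of468 {A : GL (Fin 2) (v.adicCompletion K)}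
    (h1 : ∀ i j, Valued.v ((A : Matrix (Fin 2) (Fin 2) (v.adicCompletion K)) i j) ≤ 1)
    (h2 : Valued.v (A : Matrix (Fin 2) (Fin 2) (v.adicCompletion K)).det = 1)
    (h3 : Valued.v ((A : Matrix (Fin 2) (Fin 2) (v.adicCompletion K)) 1 0) < 1) :
    IwL468 v A := by
  refine ⟨h1, fun i j => ?_, h3⟩
  rw [Fermat.Agent.LT.H129.inv_apply129, map_div₀, h2, div_one, Matrix.adjugate_fin_two]
  fin_cases i <;> fin_cases j
  · simpa using h1 1 1
  · simpa using h1 0 1
  · simpa using h1 1 0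
  · simpa using h1 0 0

theorem IwL468.one : IwL468 v (1 : GL (Fin 2) (v.adicCompletion K)) := by
  refine iwL_of468 (fun i j => ?_) (by simp) (by simp)
  fin_cases i <;> fin_cases j <;> simp

theorem IwL468.mul {A B : GL (Fin 2) (v.adicCompletion K)} (hA : IwL468 v A)
    (hB : IwL468 v B) : IwL468 v (A * B) := by
  refine iwL_of468 (fun i j => ?_) ?_ ?_
  · rw [Matrix.GeneralLinearGroup.coe_mul, Matrix.mul_apply, Fin.sum_univ_two]
    exact Valuation.map_add_le _ (val_mul_le468 (hA.1 i 0) (hB.1 0 j))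
      (val_mul_le468 (hA.1 i 1) (hB.1 1 j))
  · rw [Matrix.GeneralLinearGroup.coe_mul, Matrix.det_mul, map_mul, hA.val_det, hB.val_det,
      one_mul]
  · rw [Matrix.GeneralLinearGroup.coe_mul, Matrix.mul_apply, Fin.sum_univ_two]
    exact Valuation.map_add_lt _ (val_mul_lt468 hA.2.2 (hB.1 0 0))
      (val_mul_lt468' (hA.1 1 1) hB.2.2)

theorem IwL468.inv {A : GL (Fin 2) (v.adicCompletion K)} (hA : IwL468 v A) :
    IwL468 v A⁻¹ := by
  refine ⟨hA.2.1, by rw [inv_inv]; exact hA.1, ?_⟩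
  rw [Fermat.Agent.LT.H129.inv_apply129, map_div₀, hA.val_det, div_one, Matrix.adjugate_fin_two]
  simpa using hA.2.2

/-! ## The shape of the elements of `I diag(ϖ, 1) I` -/

variable (v)

/-- The shape of the elements of `I diag(ϖ, 1) I`. -/
def StdL468 (M : GL (Fin 2) (v.adicCompletion K)) : Prop :=
  (∀ i j, Valued.v ((M : Matrix (Fin 2) (Fin 2) (v.adicCompletion K)) i j) ≤ 1) ∧
    Valued.v ((M : Matrix (Fin 2) (Fin 2) (v.adicCompletion K)) 0 0) < 1 ∧
    Valued.v ((M : Matrix (Fin 2) (Fin 2) (v.adicCompletion K)) 1 0) < 1 ∧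
    Valued.v ((M : Matrix (Fin 2) (Fin 2) (v.adicCompletion K)) 1 1) = 1 ∧
    Valued.v (M : Matrix (Fin 2) (Fin 2) (v.adicCompletion K)).det = WithZero.exp (-1 : ℤ)

variable {v}

theorem IwL468.val_diag {A : GL (Fin 2) (v.adicCompletion K)} (h : IwL468 v A) :
    Valued.v ((A : Matrix (Fin 2) (Fin 2) (v.adicCompletion K)) 0 0) = 1 ∧
      Valued.v ((A : Matrix (Fin 2) (Fin 2) (v.adicCompletion K)) 1 1) = 1 := by
  have hd := h.val_det
  rw [Matrix.det_fin_two] at hd
  have h1 : Valued.v ((A : Matrix (Fin 2) (Fin 2) (v.adicCompletion K)) 0 1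
      * (A : Matrix (Fin 2) (Fin 2) (v.adicCompletion K)) 1 0) < 1 :=
    val_mul_lt468' (h.1 0 1) h.2.2
  have h2 : Valued.v ((A : Matrix (Fin 2) (Fin 2) (v.adicCompletion K)) 0 0
      * (A : Matrix (Fin 2) (Fin 2) (v.adicCompletion K)) 1 1) = 1 := by
    have e : (A : Matrix (Fin 2) (Fin 2) (v.adicCompletion K)) 0 0
        * (A : Matrix (Fin 2) (Fin 2) (v.adicCompletion K)) 1 1
        = ((A : Matrix (Fin 2) (Fin 2) (v.adicCompletion K)) 0 0
            * (A : Matrix (Fin 2) (Fin 2) (v.adicCompletion K)) 1 1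
          - (A : Matrix (Fin 2) (Fin 2) (v.adicCompletion K)) 0 1
            * (A : Matrix (Fin 2) (Fin 2) (v.adicCompletion K)) 1 0)
          + (A : Matrix (Fin 2) (Fin 2) (v.adicCompletion K)) 0 1
            * (A : Matrix (Fin 2) (Fin 2) (v.adicCompletion K)) 1 0 := by ring
    rw [e]
    exact val_add_eq_one468 hd h1
  rw [map_mul] at h2
  exact ⟨val_eq_one_of_mul468 (h.1 0 0) (h.1 1 1) h2,
    val_eq_one_of_mul468 (h.1 1 1) (h.1 0 0) (by rw [mul_comm]; exact h2)⟩

/-- `I M ⊆` the shape. -/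
theorem StdL468.iw_mul {A M : GL (Fin 2) (v.adicCompletion K)} (hA : IwL468 v A)
    (hM : StdL468 v M) : StdL468 v (A * M) := by
  obtain ⟨m1, m00, m10, m11, mdet⟩ := hM
  refine ⟨fun i j => ?_, ?_, ?_, ?_, ?_⟩
  · rw [Matrix.GeneralLinearGroup.coe_mul, Matrix.mul_apply, Fin.sum_univ_two]
    exact Valuation.map_add_le _ (val_mul_le468 (hA.1 i 0) (m1 0 j))
      (val_mul_le468 (hA.1 i 1) (m1 1 j))
  · rw [Matrix.GeneralLinearGroup.coe_mul, Matrix.mul_apply, Fin.sum_univ_two]
    exact Valuation.map_add_lt _ (val_mul_lt468' (hA.1 0 0) m00) (val_mul_lt468' (hA.1 0 1) m10)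
  · rw [Matrix.GeneralLinearGroup.coe_mul, Matrix.mul_apply, Fin.sum_univ_two]
    exact Valuation.map_add_lt _ (val_mul_lt468' (hA.1 1 0) m00) (val_mul_lt468' (hA.1 1 1) m10)
  · rw [Matrix.GeneralLinearGroup.coe_mul, Matrix.mul_apply, Fin.sum_univ_two, add_comm]
    refine val_add_eq_one468 ?_ (val_mul_lt468 hA.2.2 (m1 0 1))
    rw [map_mul, hA.val_diag.2, m11, one_mul]
  · rw [Matrix.GeneralLinearGroup.coe_mul, Matrix.det_mul, map_mul, hA.val_det, mdet, one_mul]

/-- `M I ⊆` the shape. -/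
theorem StdL468.mul_iw {A M : GL (Fin 2) (v.adicCompletion K)} (hM : StdL468 v M)
    (hA : IwL468 v A) : StdL468 v (M * A) := by
  obtain ⟨m1, m00, m10, m11, mdet⟩ := hM
  refine ⟨fun i j => ?_, ?_, ?_, ?_, ?_⟩
  · rw [Matrix.GeneralLinearGroup.coe_mul, Matrix.mul_apply, Fin.sum_univ_two]
    exact Valuation.map_add_le _ (val_mul_le468 (m1 i 0) (hA.1 0 j))
      (val_mul_le468 (m1 i 1) (hA.1 1 j))
  · rw [Matrix.GeneralLinearGroup.coe_mul, Matrix.mul_apply, Fin.sum_univ_two]
    exact Valuation.map_add_lt _ (val_mul_lt468 m00 (hA.1 0 0)) (val_mul_lt468' (m1 0 1) hA.2.2)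
  · rw [Matrix.GeneralLinearGroup.coe_mul, Matrix.mul_apply, Fin.sum_univ_two]
    exact Valuation.map_add_lt _ (val_mul_lt468 m10 (hA.1 0 0)) (val_mul_lt468' (m1 1 1) hA.2.2)
  · rw [Matrix.GeneralLinearGroup.coe_mul, Matrix.mul_apply, Fin.sum_univ_two, add_comm]
    refine val_add_eq_one468 ?_ (val_mul_lt468 m10 (hA.1 0 1))
    rw [map_mul, hA.val_diag.2, m11, one_mul]
  · rw [Matrix.GeneralLinearGroup.coe_mul, Matrix.det_mul, map_mul, hA.val_det, mdet, mul_one]

/-- `diag(c, 1)` has the shape. -/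
theorem StdL468.diag {T : GL (Fin 2) (v.adicCompletion K)} {c : v.adicCompletion K}
    (hc : Valued.v c = WithZero.exp (-1 : ℤ))
    (hT : (T : Matrix (Fin 2) (Fin 2) (v.adicCompletion K)) = !![c, 0; 0, 1]) :
    StdL468 v T := by
  have hc1 : Valued.v c < 1 := by rw [hc]; exact exp_neg_one_lt_one468
  refine ⟨fun i j => ?_, ?_, ?_, ?_, ?_⟩
  · rw [hT]
    fin_cases i <;> fin_cases j <;> simp [hc1.le]
  · rw [hT]; simpa using hc1
  · rw [hT]; simp
  · rw [hT]; simp
  · rw [hT, Matrix.det_fin_two_of]; simpa using hc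

/-- **The criterion.**  `M⁻¹ M' ∈ I` if `M, M'` have the shape and `M₁₁ M'₀₁ ≡ M₀₁ M'₁₁`. -/
theorem iwL_inv_mul468 {M M' : GL (Fin 2) (v.adicCompletion K)} (hM : StdL468 v M)
    (hM' : StdL468 v M')
    (h : Valued.v ((M : Matrix (Fin 2) (Fin 2) (v.adicCompletion K)) 1 1
        * (M' : Matrix (Fin 2) (Fin 2) (v.adicCompletion K)) 0 1
      - (M : Matrix (Fin 2) (Fin 2) (v.adicCompletion K)) 0 1
        * (M' : Matrix (Fin 2) (Fin 2) (v.adicCompletion K)) 1 1) < 1) :
    IwL468 v (M⁻¹ * M') := by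
  obtain ⟨m1, m00, m10, m11, mdet⟩ := hM
  obtain ⟨n1, n00, n10, n11, ndet⟩ := hM'
  have hne : (WithZero.exp (-1 : ℤ) : WithZero (Multiplicative ℤ)) ≠ 0 := WithZero.exp_ne_zero
  have hdiv : ∀ x : v.adicCompletion K, Valued.v x < 1 →
      Valued.v (x / (M : Matrix (Fin 2) (Fin 2) (v.adicCompletion K)).det) ≤ 1 := by
    intro x hx
    rw [map_div₀, mdet]
    exact div_le_one_of_le₀ (le_exp_neg_one468 hx) zero_le
  refine iwL_of468 (fun i j => ?_) ?_ ?_
  · rw [Fermat.Agent.LT.H129.inv_mul_apply129, Matrix.adjugate_fin_two, Matrix.mul_apply,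
      Fin.sum_univ_two]
    apply hdiv
    fin_cases i <;> fin_cases j
    · simp only [Fin.zero_eta, Fin.isValue, Matrix.of_apply, Matrix.cons_val', Matrix.cons_val_zero,
        Matrix.cons_val_fin_one, Matrix.cons_val_one]
      exact Valuation.map_add_lt _ (val_mul_lt468' (m1 1 1) n00)
        (val_mul_lt468' (by rw [Valuation.map_neg]; exact m1 0 1) n10)
    · simp only [Fin.zero_eta, Fin.isValue, Fin.mk_one, Matrix.of_apply, Matrix.cons_val',
        Matrix.cons_val_zero, Matrix.cons_val_fin_one, Matrix.cons_val_one]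
      have e : (M : Matrix (Fin 2) (Fin 2) (v.adicCompletion K)) 1 1
            * (M' : Matrix (Fin 2) (Fin 2) (v.adicCompletion K)) 0 1
          + -(M : Matrix (Fin 2) (Fin 2) (v.adicCompletion K)) 0 1
            * (M' : Matrix (Fin 2) (Fin 2) (v.adicCompletion K)) 1 1
          = (M : Matrix (Fin 2) (Fin 2) (v.adicCompletion K)) 1 1
            * (M' : Matrix (Fin 2) (Fin 2) (v.adicCompletion K)) 0 1
          - (M : Matrix (Fin 2) (Fin 2) (v.adicCompletion K)) 0 1
            * (M' : Matrix (Fin 2) (Fin 2) (v.adicCompletion K)) 1 1 := by ring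
      rw [e]
      exact h
    · simp only [Fin.mk_one, Fin.isValue, Fin.zero_eta, Matrix.of_apply, Matrix.cons_val',
        Matrix.cons_val_zero, Matrix.cons_val_fin_one, Matrix.cons_val_one]
      exact Valuation.map_add_lt _
        (val_mul_lt468 (by rw [Valuation.map_neg]; exact m10) (n1 0 0))
        (val_mul_lt468 m00 (n1 1 0))
    · simp only [Fin.mk_one, Fin.isValue, Matrix.of_apply, Matrix.cons_val', Matrix.cons_val_one,
        Matrix.cons_val_fin_one, Matrix.cons_val_zero]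
      exact Valuation.map_add_lt _
        (val_mul_lt468 (by rw [Valuation.map_neg]; exact m10) (n1 0 1))
        (val_mul_lt468 m00 (n1 1 1))
  · rw [Matrix.GeneralLinearGroup.coe_mul, Matrix.det_mul, map_mul]
    have hi := det_mul_det_inv468 M
    have hvi : Valued.v ((M⁻¹ : GL (Fin 2) (v.adicCompletion K)) :
        Matrix (Fin 2) (Fin 2) (v.adicCompletion K)).det = (WithZero.exp (-1 : ℤ))⁻¹ := by
      have := congrArg Valued.v hi
      rw [map_mul, map_one, mdet] at this
      exact eq_inv_of_mul_eq_one_right this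
    rw [hvi, ndet, inv_mul_cancel₀ hne]
  · rw [Fermat.Agent.LT.H129.inv_mul_apply129, Matrix.adjugate_fin_two, Matrix.mul_apply,
      Fin.sum_univ_two, map_div₀, mdet]
    simp only [Fin.isValue, Matrix.of_apply, Matrix.cons_val', Matrix.cons_val_zero,
      Matrix.cons_val_fin_one, Matrix.cons_val_one]
    -- the numerator has valuation `≤ exp (-2)`
    have hsq : ∀ x y : v.adicCompletion K, Valued.v x < 1 → Valued.v y < 1 →
        Valued.v (x * y) ≤ WithZero.exp (-1 : ℤ) * WithZero.exp (-1 : ℤ) := by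
      intro x y hx hy
      rw [map_mul]
      exact mul_le_mul' (le_exp_neg_one468 hx) (le_exp_neg_one468 hy)
    have hnum : Valued.v (-(M : Matrix (Fin 2) (Fin 2) (v.adicCompletion K)) 1 0
          * (M' : Matrix (Fin 2) (Fin 2) (v.adicCompletion K)) 0 0
        + (M : Matrix (Fin 2) (Fin 2) (v.adicCompletion K)) 0 0
          * (M' : Matrix (Fin 2) (Fin 2) (v.adicCompletion K)) 1 0)
        ≤ WithZero.exp (-1 : ℤ) * WithZero.exp (-1 : ℤ) :=
      Valuation.map_add_le _ (hsq _ _ (by rw [Valuation.map_neg]; exact m10) n00)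
        (hsq _ _ m00 n10)
    calc _ ≤ WithZero.exp (-1 : ℤ) * WithZero.exp (-1 : ℤ) / WithZero.exp (-1 : ℤ) :=
          div_le_div_of_nonneg_right hnum zero_le
      _ = WithZero.exp (-1 : ℤ) := by rw [mul_div_assoc, div_self hne, mul_one]
      _ < 1 := exp_neg_one_lt_one468

end Fermat.Agent.LT.T7.H468

end
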