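import Mathlib
import Fermat.Agent.LT.T7.H468.IwLocal
import Fermat.Agent.LT.T7.H534.DownBasisSpec
import Fermat.Agent.LT.T8.H864.Local

/-!
# Row LT, tower T7, leaf T7.L2.3.5.3 `SD534.OpsClassC` (helper468): Iwahori coset systems

OFF-MAIN.  An Iwahori coset system `H` at `u` (`T7.IsIwCosetSystem`) is a FULL system of
representatives of `I t I / I` (`iw_complete468`: invariant `M₀₁ / M₁₁ mod 𝔭`, pigeonhole), hence
left multiplication by an element of `I` supported at `u` permutes `H` modulo `I`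
(`iw_perm_sum468`).
-/

set_option autoImplicit false
set_option linter.unusedSectionVars false
set_option linter.style.haveILetI false

open AutomorphicForm IsDedekindDomain NumberField MeasureTheory Matrix
open scoped ComplexConjugate

noncomputable section

namespace Fermat.Agent.LT.T7.H468

open Fermat.Agent.LT.H556 Fermat.Agent.LT.H556.A0 Fermat.Agent.LT.T7
open Fermat.Agent.LT.T8.H864

variable {K : Type} [Field K] [NumberField K]

/-! ## The invariant -/

/-- The invariant `M₀₁ / M₁₁ mod 𝔭`. -/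
def lamL468 (v : HeightOneSpectrum (𝓞 K)) (M : GL (Fin 2) (v.adicCompletion K)) :
    IsLocalRing.ResidueField (v.adicCompletionIntegers K) :=
  if h : Valued.v ((M : Matrix (Fin 2) (Fin 2) (v.adicCompletion K)) 0 1
      / (M : Matrix (Fin 2) (Fin 2) (v.adicCompletion K)) 1 1) ≤ 1 then
    IsLocalRing.residue (v.adicCompletionIntegers K)
      ⟨(M : Matrix (Fin 2) (Fin 2) (v.adicCompletion K)) 0 1
        / (M : Matrix (Fin 2) (Fin 2) (v.adicCompletion K)) 1 1, h⟩
  else 0

theorem val_of_lamL_eq468 {v : HeightOneSpectrum (𝓞 K)} {M M' : GL (Fin 2) (v.adicCompletion K)}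
    (hM : StdL468 v M) (hM' : StdL468 v M') (h : lamL468 v M = lamL468 v M') :
    Valued.v ((M : Matrix (Fin 2) (Fin 2) (v.adicCompletion K)) 1 1
        * (M' : Matrix (Fin 2) (Fin 2) (v.adicCompletion K)) 0 1
      - (M : Matrix (Fin 2) (Fin 2) (v.adicCompletion K)) 0 1
        * (M' : Matrix (Fin 2) (Fin 2) (v.adicCompletion K)) 1 1) < 1 := by
  obtain ⟨m1, -, -, m11, -⟩ := hM
  obtain ⟨n1, -, -, n11, -⟩ := hM'
  have hm0 : (M : Matrix (Fin 2) (Fin 2) (v.adicCompletion K)) 1 1 ≠ 0 := by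
    intro h0
    rw [h0, map_zero] at m11
    exact zero_ne_one m11
  have hn0 : (M' : Matrix (Fin 2) (Fin 2) (v.adicCompletion K)) 1 1 ≠ 0 := by
    intro h0
    rw [h0, map_zero] at n11
    exact zero_ne_one n11
  have ha : Valued.v ((M : Matrix (Fin 2) (Fin 2) (v.adicCompletion K)) 0 1
      / (M : Matrix (Fin 2) (Fin 2) (v.adicCompletion K)) 1 1) ≤ 1 := by
    rw [map_div₀, m11, div_one]
    exact m1 0 1
  have ha' : Valued.v ((M' : Matrix (Fin 2) (Fin 2) (v.adicCompletion K)) 0 1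
      / (M' : Matrix (Fin 2) (Fin 2) (v.adicCompletion K)) 1 1) ≤ 1 := by
    rw [map_div₀, n11, div_one]
    exact n1 0 1
  unfold lamL468 at h
  rw [dif_pos ha, dif_pos ha'] at h
  have h2 := sub_eq_zero.2 h.symm
  rw [← map_sub, Fermat.Agent.LT.H129.residue_eq_zero_iff_valued129] at h2
  have h3 : Valued.v ((M' : Matrix (Fin 2) (Fin 2) (v.adicCompletion K)) 0 1
        / (M' : Matrix (Fin 2) (Fin 2) (v.adicCompletion K)) 1 1
      - (M : Matrix (Fin 2) (Fin 2) (v.adicCompletion K)) 0 1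
        / (M : Matrix (Fin 2) (Fin 2) (v.adicCompletion K)) 1 1) < 1 := h2
  have e : (M : Matrix (Fin 2) (Fin 2) (v.adicCompletion K)) 1 1
        * (M' : Matrix (Fin 2) (Fin 2) (v.adicCompletion K)) 0 1
      - (M : Matrix (Fin 2) (Fin 2) (v.adicCompletion K)) 0 1
        * (M' : Matrix (Fin 2) (Fin 2) (v.adicCompletion K)) 1 1
      = (M : Matrix (Fin 2) (Fin 2) (v.adicCompletion K)) 1 1
        * (M' : Matrix (Fin 2) (Fin 2) (v.adicCompletion K)) 1 1
        * ((M' : Matrix (Fin 2) (Fin 2) (v.adicCompletion K)) 0 1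
            / (M' : Matrix (Fin 2) (Fin 2) (v.adicCompletion K)) 1 1
          - (M : Matrix (Fin 2) (Fin 2) (v.adicCompletion K)) 0 1
            / (M : Matrix (Fin 2) (Fin 2) (v.adicCompletion K)) 1 1) := by
    field_simp
  rw [e, map_mul, map_mul, m11, n11, one_mul, one_mul]
  exact h3

/-! ## Adelic and local predicates -/

theorem inIwahori_iff468 (u : HeightOneSpectrum (𝓞 K)) (g : G K) :
    T5.InIwahori u g ↔ IwL468 u (finCompHom u g) := by
  unfold T5.InIwahori IwL468 IsIntegralAt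
  rw [← map_inv]
  rfl

theorem inIwahori_mul468 {u : HeightOneSpectrum (𝓞 K)} {g g' : G K} (hg : T5.InIwahori u g)
    (hg' : T5.InIwahori u g') : T5.InIwahori u (g * g') := by
  rw [inIwahori_iff468] at hg hg' ⊢
  rw [map_mul]
  exact hg.mul hg'

theorem inIwahori_inv468 {u : HeightOneSpectrum (𝓞 K)} {g : G K} (hg : T5.InIwahori u g) :
    T5.InIwahori u g⁻¹ := by
  rw [inIwahori_iff468] at hg ⊢
  rw [map_inv]
  exact hg.inv

theorem stdL_of_coset468 {u : HeightOneSpectrum (𝓞 K)} {h : G K}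
    (hh : T5.InIwahoriCoset u 1 h) : StdL468 u (finCompHom u h) := by
  obtain ⟨k₁, k₂, t, c, hk₁, hk₂, hc, ht, hfc⟩ := hh
  have e : finCompHom u h = finCompHom u k₁ * finCompHom u t * finCompHom u k₂ := by
    rw [← map_mul, ← map_mul]
    exact Units.ext hfc
  rw [e]
  refine StdL468.mul_iw (StdL468.iw_mul ((inIwahori_iff468 u k₁).1 hk₁) ?_)
    ((inIwahori_iff468 u k₂).1 hk₂)
  refine StdL468.diag (c := c) ?_ ht
  rw [hc]
  simp

/-! ## Completeness -/

/-- **An Iwahori coset system is complete.** -/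
theorem iw_complete468 {u : HeightOneSpectrum (𝓞 K)} {H : Finset (G K)}
    (hH : IsIwCosetSystem u H) {g : G K} (hg : StdL468 u (finCompHom u g)) :
    ∃ h ∈ H, T5.InIwahori u (h⁻¹ * g) := by
  classical
  obtain ⟨hcard, hmem, hne⟩ := hH
  haveI : Finite (IsLocalRing.ResidueField (u.adicCompletionIntegers K)) :=
    Fermat.Agent.LT.H129.finite_residueField129 K u
  letI : Fintype (IsLocalRing.ResidueField (u.adicCompletionIntegers K)) := Fintype.ofFinite _
  have hstd : ∀ h ∈ H, StdL468 u (finCompHom u h) := fun h hh => stdL_of_coset468 (hmem h hh).2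
  have key : ∀ a b : G K, StdL468 u (finCompHom u a) → StdL468 u (finCompHom u b) →
      lamL468 u (finCompHom u a) = lamL468 u (finCompHom u b) → T5.InIwahori u (a⁻¹ * b) := by
    intro a b ha hb hab
    rw [inIwahori_iff468, map_mul, map_inv]
    exact iwL_inv_mul468 ha hb (val_of_lamL_eq468 ha hb hab)
  let ι : {h // h ∈ H} → IsLocalRing.ResidueField (u.adicCompletionIntegers K) :=
    fun h => lamL468 u (finCompHom u h.1)
  have hinj : Function.Injective ι := by
    intro h h' e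
    by_contra hcon
    have hne' : h.1 ≠ h'.1 := fun hh => hcon (Subtype.ext hh)
    exact hne h.1 h.2 h'.1 h'.2 hne' (key h.1 h'.1 (hstd h.1 h.2) (hstd h'.1 h'.2) e)
  have hcard' : Fintype.card {h // h ∈ H}
      = Fintype.card (IsLocalRing.ResidueField (u.adicCompletionIntegers K)) := by
    rw [Fintype.card_coe, hcard, ← Nat.card_eq_fintype_card,
      Fermat.Agent.LT.H129.card_residueField129 K u]
  have hbij : Function.Bijective ι :=
    (Fintype.bijective_iff_injective_and_card ι).mpr ⟨hinj, hcard'⟩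
  obtain ⟨⟨h, hhH⟩, hh⟩ := hbij.2 (lamL468 u (finCompHom u g))
  exact ⟨h, hhH, key h g (hstd h hhH) hg hh⟩

/-! ## Elements supported at `u` -/

theorem isLocalAtFin_mul468 {u : HeightOneSpectrum (𝓞 K)} {g g' : G K}
    (hg : IsLocalAtFin u g) (hg' : IsLocalAtFin u g') : IsLocalAtFin u (g * g') := by
  refine ⟨fun w => ?_, fun v hv => ?_⟩
  · rw [trivAtInf_iff_hom, map_mul, (trivAtInf_iff_hom w g).1 (hg.1 w),
      (trivAtInf_iff_hom w g').1 (hg'.1 w), one_mul]
  · rw [trivAtFin_iff_hom, map_mul, (trivAtFin_iff_hom v g).1 (hg.2 v hv),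
      (trivAtFin_iff_hom v g').1 (hg'.2 v hv), one_mul]

theorem isLocalAtFin_inv468 {u : HeightOneSpectrum (𝓞 K)} {g : G K}
    (hg : IsLocalAtFin u g) : IsLocalAtFin u g⁻¹ := by
  refine ⟨fun w => ?_, fun v hv => ?_⟩
  · rw [trivAtInf_iff_hom, map_inv, (trivAtInf_iff_hom w g).1 (hg.1 w), inv_one]
  · rw [trivAtFin_iff_hom, map_inv, (trivAtFin_iff_hom v g).1 (hg.2 v hv), inv_one]

/-- Invariance under the Iwahori subgroup at `u`, in the form used below. -/
theorem iwInv_apply468 {u : HeightOneSpectrum (𝓞 K)} {ψ : G K → ℂ}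
    (hψ : IsIwInv 1 (fun _ => u) ψ) {κ : G K} (hκ : IsLocalAtFin u κ)
    (hκI : T5.InIwahori u κ) (x : G K) : ψ (x * κ) = ψ x :=
  hψ κ hκ.1 (fun v hv => hκ.2 v (hv 0 Nat.zero_lt_one)) (fun _ _ => hκI) x

/-- **The permutation of the coset system.** -/
theorem iw_perm_sum468 {u : HeightOneSpectrum (𝓞 K)} {H : Finset (G K)}
    (hH : IsIwCosetSystem u H) {ψ : G K → ℂ} (hψ : IsIwInv 1 (fun _ => u) ψ) {i : G K}
    (hi : IsLocalAtFin u i) (hiI : T5.InIwahori u i) (x : G K) :
    ∑ h ∈ H, ψ (x * (i * h)) = ∑ h ∈ H, ψ (x * h) := by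
  classical
  have hstd : ∀ h ∈ H, StdL468 u (finCompHom u (i * h)) := by
    intro h hh
    rw [map_mul]
    exact StdL468.iw_mul ((inIwahori_iff468 u i).1 hiI) (stdL_of_coset468 (hH.2.1 h hh).2)
  have hex : ∀ h : {h // h ∈ H}, ∃ h' ∈ H, T5.InIwahori u (h'⁻¹ * (i * h.1)) :=
    fun h => iw_complete468 hH (hstd h.1 h.2)
  choose σ hσH hσ using hex
  have hval : ∀ h : {h // h ∈ H}, ψ (x * (i * h.1)) = ψ (x * σ h) := by
    intro h
    have e : x * (i * h.1) = x * σ h * ((σ h)⁻¹ * (i * h.1)) := by group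
    rw [e]
    exact iwInv_apply468 hψ
      (isLocalAtFin_mul468 (isLocalAtFin_inv468 (hH.2.1 _ (hσH h)).1)
        (isLocalAtFin_mul468 hi (hH.2.1 h.1 h.2).1)) (hσ h) _
  have hinj : ∀ a b : {h // h ∈ H}, σ a = σ b → a = b := by
    intro a b hab
    by_contra hcon
    have hne' : a.1 ≠ b.1 := fun hh => hcon (Subtype.ext hh)
    apply hH.2.2 a.1 a.2 b.1 b.2 hne'
    have e : a.1⁻¹ * b.1 = ((σ a)⁻¹ * (i * a.1))⁻¹ * ((σ b)⁻¹ * (i * b.1)) := by
      rw [hab]; group
    rw [e]
    exact inIwahori_mul468 (inIwahori_inv468 (hσ a)) (hσ b)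
  rw [← Finset.sum_coe_sort H (fun h => ψ (x * (i * h))),
    ← Finset.sum_coe_sort H (fun h => ψ (x * h))]
  let τ : {h // h ∈ H} → {h // h ∈ H} := fun h => ⟨σ h, hσH h⟩
  have hτinj : Function.Injective τ := fun a b hab => hinj a b (congrArg Subtype.val hab)
  have hτbij : Function.Bijective τ := Finite.injective_iff_bijective.1 hτinj
  calc ∑ h : {h // h ∈ H}, ψ (x * (i * h.1))
      = ∑ h : {h // h ∈ H}, ψ (x * (τ h).1) := Finset.sum_congr rfl (fun h _ => hval h)
    _ = ∑ h : {h // h ∈ H}, ψ (x * h.1) :=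
        Function.Bijective.sum_comp hτbij (fun h : {h // h ∈ H} => ψ (x * h.1))

end Fermat.Agent.LT.T7.H468

end
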