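import Mathlib
import Fermat.Agent.LT.T7.H468.IwPerm
import Fermat.Agent.LT.T1.H848.AddFundDom
import Fermat.Agent.LT.T1.H767.AdeleLattice
import Fermat.Agent.LT.T1.H11.LocComp
import Fermat.Agent.LT.T2.H472.LocCont

/-!
# Row LT, tower T7, leaf T7.L2.3.5.3 `SD534.OpsClassC` (helper468): the Iwahori operator `𝒰`

OFF-MAIN.  The tools for the field `iw` of `SD534.IsOpsClass`:

* `inIwahori_of_level468` : `U(𝔫) ⊆ I_u` at `u ∣ 𝔫`; `level_split468` : `u' = i u''`, `i` in the
  Iwahori subgroup and supported at `u`, `u'' ∈ U(𝔫)` trivial at `u`;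
* `iwOp_eigen468`, `iwOp_sum_eigen468` : the relations `ψ(g y) = c ψ(g)`,
  `∑_{h'} ψ(g h') = c ψ(g)` for elements which are trivial at `u` pass to `𝒰 ψ`;
* `iwOp_iw468` : `𝒰 ψ` is invariant under the Iwahori subgroup (`iw_perm_sum468`);
* `isCuspidalFn_iwOp468` : the constant term (`T1.AddFundDomC`, unconditional);
* `meanEig_iwOp468` : the sphere means (continuity of the Euler family: `T2.H472.locCont472`).
-/

set_option autoImplicit false
set_option linter.unusedSectionVars false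
set_option linter.unusedVariables false
set_option linter.style.haveILetI false

open AutomorphicForm IsDedekindDomain NumberField MeasureTheory Matrix
open scoped ComplexConjugate

noncomputable section

namespace Fermat.Agent.LT.T7.H468

open Fermat.Agent.LT.H556 Fermat.Agent.LT.H556.A0 Fermat.Agent.LT.T7
open Fermat.Agent.LT.T8.H864

variable {K : Type} [Field K] [NumberField K]

/-! ## The closure of an ideal divisible by `u` -/

theorem valuedAlg468 (v : HeightOneSpectrum (𝓞 K)) (q : K) :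
    Valued.v (algebraMap K (v.adicCompletion K) q) = v.valuation K q :=
  HeightOneSpectrum.valuedAdicCompletion_eq_valuation' v q

theorem zero_mem_idealClosure468o (𝔫 : Ideal (𝓞 K)) (v : HeightOneSpectrum (𝓞 K)) :
    (0 : v.adicCompletion K) ∈ idealClosure 𝔫 v := by
  apply subset_closure
  exact ⟨0, 𝔫.zero_mem, by simp⟩

theorem isClosed_lt_one468 (v : HeightOneSpectrum (𝓞 K)) :
    IsClosed {x : v.adicCompletion K | Valued.v x < 1} := by
  have h := Valued.isClosed_ball (v.adicCompletion K) (1 : MonoidWithZeroHom.ValueGroup₀ _)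
  have e : {x : v.adicCompletion K | Valued.v x < 1} = {x | Valued.v.restrict x < 1} := by
    ext x
    simp [Valuation.restrict_lt_iff_lt_embedding]
  rw [e]
  exact h

/-- The closure of an ideal consists of integers. -/
theorem idealClosure_integral468 (𝔫 : Ideal (𝓞 K)) (v : HeightOneSpectrum (𝓞 K))
    {x : v.adicCompletion K} (hx : x ∈ idealClosure 𝔫 v) : x ∈ v.adicCompletionIntegers K := by
  have hcl : IsClosed ((v.adicCompletionIntegers K : Set (v.adicCompletion K))) :=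
    Valued.isClosed_valuationSubring _
  refine closure_minimal ?_ hcl hx
  rintro _ ⟨n, -, rfl⟩
  rw [SetLike.mem_coe, HeightOneSpectrum.mem_adicCompletionIntegers, valuedAlg468]
  exact HeightOneSpectrum.valuation_le_one v n

/-- The closure of an ideal divisible by `u` lies in the maximal ideal at `u`. -/
theorem idealClosure_lt_one468 {𝔫 : Ideal (𝓞 K)} {u : HeightOneSpectrum (𝓞 K)}
    (hu : u.asIdeal ∣ 𝔫) {x : u.adicCompletion K} (hx : x ∈ idealClosure 𝔫 u) :
    Valued.v x < 1 := by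
  refine closure_minimal ?_ (isClosed_lt_one468 u) hx
  rintro _ ⟨n, hn, rfl⟩
  show Valued.v (algebraMap K (u.adicCompletion K) (algebraMap (𝓞 K) K n)) < 1
  rw [valuedAlg468]
  exact (HeightOneSpectrum.valuation_lt_one_iff_mem u n).2 (Ideal.dvd_iff_le.1 hu hn)

/-- The level group lies in the Iwahori subgroup at `u ∣ 𝔫`. -/
theorem inIwahori_of_level468 {𝔫 : Ideal (𝓞 K)} {u : HeightOneSpectrum (𝓞 K)}
    (hu : u.asIdeal ∣ 𝔫) {g : G K} (hg : InLevelGroup 𝔫 g) : T5.InIwahori u g := by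
  have key : ∀ (M : Matrix (Fin 2) (Fin 2) (u.adicCompletion K)),
      (∀ i j, (M - 1) i j ∈ idealClosure 𝔫 u) → ∀ i j, M i j ∈ u.adicCompletionIntegers K := by
    intro M hM i j
    have e : M i j = (M - 1) i j + (1 : Matrix (Fin 2) (Fin 2) (u.adicCompletion K)) i j := by
      rw [Matrix.sub_apply, sub_add_cancel]
    rw [e]
    exact add_mem (idealClosure_integral468 𝔫 u (hM i j)) (one_apply_mem_integers u i j)
  refine ⟨key _ fun i j => (hg.2 u i j).1, key _ fun i j => (hg.2 u i j).2, ?_⟩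
  have h := idealClosure_lt_one468 hu (hg.2 u 1 0).1
  rwa [Matrix.sub_apply, Matrix.one_apply_ne (by decide), sub_zero] at h

/-! ## Elements which are trivial at `u` -/

/-- An element which is trivial at `u` commutes with the elements supported at `u`. -/
theorem comm_local468 {u : HeightOneSpectrum (𝓞 K)} {h y : G K} (hh : IsLocalAtFin u h)
    (hy : TrivAtFin u y) : y * h = h * y := by
  refine commute_of_triv (fun w => Or.inr ((trivAtInf_iff_hom w h).1 (hh.1 w))) (fun v => ?_)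
  by_cases hv : v = u
  · subst hv
    exact Or.inl ((trivAtFin_iff_hom _ y).1 hy)
  · exact Or.inr ((trivAtFin_iff_hom v h).1 (hh.2 v hv))

/-- The splitting of an element of the level group at `u`. -/
theorem level_split468 {𝔫 : Ideal (𝓞 K)} {u : HeightOneSpectrum (𝓞 K)}
    (hu : u.asIdeal ∣ 𝔫) {g : G K} (hg : InLevelGroup 𝔫 g) :
    ∃ i y : G K, g = i * y ∧ IsLocalAtFin u i ∧ T5.InIwahori u i ∧ TrivAtFin u y ∧
      InLevelGroup 𝔫 y := by
  have hiu : finCompHom u (locFin u (finCompHom u g)) = finCompHom u g :=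
    finCompHom_locFin_self u _
  have hyu : finCompHom u ((locFin u (finCompHom u g))⁻¹ * g) = 1 := by
    rw [map_mul, map_inv, hiu, inv_mul_cancel]
  have hyv : ∀ v : HeightOneSpectrum (𝓞 K), v ≠ u →
      finCompHom v ((locFin u (finCompHom u g))⁻¹ * g) = finCompHom v g := by
    intro v hv
    rw [map_mul, map_inv, finCompHom_locFin_of_ne hv, inv_one, one_mul]
  refine ⟨locFin u (finCompHom u g), (locFin u (finCompHom u g))⁻¹ * g, by group,
    isLocalAtFin_locFin u _, ?_, (trivAtFin_iff_hom u _).2 hyu, ⟨fun w => ?_, fun v i j => ?_⟩⟩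
  · rw [inIwahori_iff468, hiu, ← inIwahori_iff468]
    exact inIwahori_of_level468 hu hg
  · rw [trivAtInf_iff_hom, map_mul, map_inv, infCompHom_locFin, inv_one, one_mul]
    exact (trivAtInf_iff_hom w g).1 (hg.1 w)
  · by_cases hv : v = u
    · subst hv
      have e1 : finComp v ((locFin v (finCompHom v g))⁻¹ * g) = 1 := by
        rw [← coe_finCompHom, hyu]; rfl
      have e2 : finComp v ((locFin v (finCompHom v g))⁻¹ * g)⁻¹ = 1 := by
        rw [← coe_finCompHom, map_inv, hyu, inv_one]; rfl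
      rw [e1, e2, sub_self]
      exact ⟨zero_mem_idealClosure468o 𝔫 v, zero_mem_idealClosure468o 𝔫 v⟩
    · have e1 : finComp v ((locFin u (finCompHom u g))⁻¹ * g) = finComp v g := by
        rw [← coe_finCompHom, hyv v hv, coe_finCompHom]
      have e2 : finComp v ((locFin u (finCompHom u g))⁻¹ * g)⁻¹ = finComp v g⁻¹ := by
        rw [← coe_finCompHom, map_inv, hyv v hv, ← map_inv, coe_finCompHom]
      rw [e1, e2]
      exact hg.2 v i j

/-! ## Relations which pass to `𝒰 ψ` -/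

theorem iwOp_apply468 (u : HeightOneSpectrum (𝓞 K)) (H : Finset (G K)) (ψ : G K → ℂ) (x : G K) :
    iwOp u H ψ x
      = ((Real.sqrt (Ideal.absNorm u.asIdeal : ℝ) : ℝ) : ℂ)⁻¹ * ∑ h ∈ H, ψ (x * h) := rfl

/-- A relation `ψ(g y) = c ψ(g)` with `y` trivial at `u` passes to `𝒰 ψ`. -/
theorem iwOp_eigen468 {u : HeightOneSpectrum (𝓞 K)} {H : Finset (G K)}
    (hH : ∀ h ∈ H, IsLocalAtFin u h) {ψ : G K → ℂ} {y : G K} (hy : TrivAtFin u y) {c : ℂ}
    (he : ∀ g : G K, ψ (g * y) = c * ψ g) (g : G K) :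
    iwOp u H ψ (g * y) = c * iwOp u H ψ g := by
  rw [iwOp_apply468, iwOp_apply468]
  have e : ∑ h ∈ H, ψ (g * y * h) = c * ∑ h ∈ H, ψ (g * h) := by
    rw [Finset.mul_sum]
    refine Finset.sum_congr rfl fun h hh => ?_
    rw [mul_assoc, comm_local468 (hH h hh) hy, ← mul_assoc]
    exact he _
  rw [e]
  ring

/-- A relation `∑_{h'} ψ(g h') = c ψ(g)` with the `h'` trivial at `u` passes to `𝒰 ψ`. -/
theorem iwOp_sum_eigen468 {u : HeightOneSpectrum (𝓞 K)} {H : Finset (G K)}
    (hH : ∀ h ∈ H, IsLocalAtFin u h) {ψ : G K → ℂ} {H' : Finset (G K)}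
    (hH' : ∀ h' ∈ H', TrivAtFin u h') {c : ℂ}
    (he : ∀ g : G K, ∑ h' ∈ H', ψ (g * h') = c * ψ g) (g : G K) :
    ∑ h' ∈ H', iwOp u H ψ (g * h') = c * iwOp u H ψ g := by
  simp only [iwOp_apply468]
  have e : ∑ h' ∈ H', ∑ h ∈ H, ψ (g * h' * h) = c * ∑ h ∈ H, ψ (g * h) := by
    rw [Finset.sum_comm, Finset.mul_sum]
    refine Finset.sum_congr rfl fun h hh => ?_
    rw [← he (g * h)]
    refine Finset.sum_congr rfl fun h' hh' => ?_
    rw [mul_assoc, comm_local468 (hH h hh) (hH' h' hh'), ← mul_assoc]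
  rw [← Finset.mul_sum, e]
  ring

/-- `𝒰 ψ` is invariant under the elements of the Iwahori subgroup supported at `u`. -/
theorem iwOp_iw468 {u : HeightOneSpectrum (𝓞 K)} {H : Finset (G K)}
    (hH : IsIwCosetSystem u H) {ψ : G K → ℂ} (hψ : IsIwInv 1 (fun _ => u) ψ) {i : G K}
    (hi : IsLocalAtFin u i) (hiI : T5.InIwahori u i) (g : G K) :
    iwOp u H ψ (g * i) = iwOp u H ψ g := by
  rw [iwOp_apply468, iwOp_apply468]
  congr 1
  rw [← iw_perm_sum468 hH hψ hi hiI g]
  exact Finset.sum_congr rfl fun h _ => by rw [mul_assoc]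

/-- `𝒰 ψ` is invariant under the level group. -/
theorem iwOp_level468 {𝔫 : Ideal (𝓞 K)} {u : HeightOneSpectrum (𝓞 K)} (hu : u.asIdeal ∣ 𝔫)
    {H : Finset (G K)} (hH : IsIwCosetSystem u H) {ψ : G K → ℂ}
    (hψ : IsIwInv 1 (fun _ => u) ψ)
    (hl : ∀ u' : G K, InLevelGroup 𝔫 u' → ∀ g : G K, ψ (g * u') = ψ g)
    {u' : G K} (hu' : InLevelGroup 𝔫 u') (g : G K) :
    iwOp u H ψ (g * u') = iwOp u H ψ g := by
  obtain ⟨i, y, rfl, hi, hiI, hy, hyL⟩ := level_split468 hu hu'
  rw [← mul_assoc, iwOp_eigen468 (fun h hh => (hH.2.1 h hh).1) hy (c := 1)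
    (fun g => by rw [one_mul]; exact hl y hyL g), one_mul]
  exact iwOp_iw468 hH hψ hi hiI g

/-! ## Continuity, bound -/

theorem continuous_iwOp468 (u : HeightOneSpectrum (𝓞 K)) (H : Finset (G K)) {ψ : G K → ℂ}
    (hψ : Continuous ψ) : Continuous (iwOp u H ψ) :=
  continuous_const.mul (continuous_finsetSum _ fun h _ => hψ.comp (continuous_mul_const h))

theorem bdd_iwOp468 (u : HeightOneSpectrum (𝓞 K)) (H : Finset (G K)) {ψ : G K → ℂ}
    (hψ : ∃ C : ℝ, ∀ g : G K, ‖ψ g‖ ≤ C) : ∃ C : ℝ, ∀ g : G K, ‖iwOp u H ψ g‖ ≤ C := by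
  obtain ⟨C, hC⟩ := hψ
  refine ⟨‖(((Real.sqrt (Ideal.absNorm u.asIdeal : ℝ) : ℝ) : ℂ))⁻¹‖ * ∑ _h ∈ H, C, fun g => ?_⟩
  rw [iwOp_apply468, norm_mul]
  refine mul_le_mul_of_nonneg_left ?_ (norm_nonneg _)
  exact (norm_sum_le _ _).trans (Finset.sum_le_sum fun h _ => hC _)

/-! ## The constant term -/

/-- A family of upper unipotent elements `n(x) = [[1, x], [0, 1]]` is continuous in `x`. -/
theorem continuous_unipFam468 (n : Adl K → G K)
    (hn : ∀ x : Adl K, (n x : Matrix (Fin 2) (Fin 2) (Adl K)) = !![1, x; 0, 1]) :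
    Continuous n := by
  rw [Units.continuous_iff]
  constructor
  · have h : (Units.val ∘ n) = fun x : Adl K => !![1, x; 0, 1] := funext hn
    rw [h]
    refine continuous_matrix fun i j => ?_
    fin_cases i <;> fin_cases j <;> simp <;> fun_prop
  · have h : (fun x => ((n x)⁻¹ : G K).val) = fun x : Adl K => !![1, -x; 0, 1] := by
      funext x
      have h1 : (n x : Matrix (Fin 2) (Fin 2) (Adl K)) * !![1, -x; 0, 1] = 1 := by
        rw [hn x]
        ext i j
        fin_cases i <;> fin_cases j <;> simp [Matrix.mul_apply, Fin.sum_univ_two]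
      exact Units.inv_eq_of_mul_eq_one_right h1
    rw [h]
    refine continuous_matrix fun i j => ?_
    fin_cases i <;> fin_cases j <;> simp <;> fun_prop

/-- The constant term of `𝒰 ψ` vanishes. -/
theorem isCuspidalFn_iwOp468 (u : HeightOneSpectrum (𝓞 K)) (H : Finset (G K)) {ψ : G K → ℂ}
    (hcont : Continuous ψ) (hbdd : ∃ C : ℝ, ∀ g : G K, ‖ψ g‖ ≤ C) (hcusp : IsCuspidalFn ψ) :
    IsCuspidalFn (iwOp u H ψ) := by
  letI : MeasurableSpace (Adl K) := borel (Adl K)
  haveI : BorelSpace (Adl K) := ⟨rfl⟩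
  intro μ hμ D hD n hn g
  haveI := hμ
  obtain ⟨D₀, -, hD₀, -, -, hfin⟩ :=
    Fermat.Agent.LT.T1.H848.leafAddFundDom848 K (Fermat.Agent.LT.T1.H11.locCompC_h11 K)
      (Fermat.Agent.LT.H767.adeleLatticeC767 K) μ hμ
  haveI : Countable (Fermat.Agent.LT.T1.princ K) := Fermat.Agent.LT.T1.H848.countable_princ848 K
  have hDfin : μ D ≠ ⊤ := by
    have h : μ D = μ D₀ :=
      IsAddFundamentalDomain.measure_eq (G := Fermat.Agent.LT.T1.princ K) hD hD₀
    rw [h]
    exact hfin.ne
  have hncont : ∀ h : G K, Continuous fun x => n x * (g * h) := fun h =>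
    (continuous_unipFam468 n hn).mul continuous_const
  obtain ⟨C, hC⟩ := hbdd
  have hint : ∀ h ∈ H, IntegrableOn (fun x => ψ (n x * (g * h))) D μ := fun h _ =>
    Measure.integrableOn_of_bounded hDfin
      (hcont.comp (hncont h)).aestronglyMeasurable (Filter.Eventually.of_forall fun x => hC _)
  have e : (fun x => iwOp u H ψ (n x * g))
      = fun x => ((Real.sqrt (Ideal.absNorm u.asIdeal : ℝ) : ℝ) : ℂ)⁻¹
          * ∑ h ∈ H, ψ (n x * (g * h)) := by
    funext x
    rw [iwOp_apply468]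
    simp only [mul_assoc]
  rw [e, integral_const_mul, integral_finsetSum H hint]
  rw [Finset.sum_eq_zero fun h _ => hcusp μ hμ D hD n hn (g * h), mul_zero]

/-! ## The sphere means -/

/-- The Euler family `Y α β` at the infinite place `w` is continuous. -/
theorem continuous_euler468 (w : InfinitePlace K) (d : ℝ) (Y : ℝ → ℝ → G K)
    (hY : ∀ α β : ℝ, IsLocalAtInf w (Y α β) ∧ infComp w (Y α β) = rotZ α * rotY β * torus d) :
    Continuous fun p : ℝ × ℝ => Y p.1 p.2 := by
  refine Fermat.Agent.LT.T2.H472.locCont472 K w (ℝ × ℝ) _ (fun p => (hY p.1 p.2).1)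
    (fun i j => ?_)
  have e : (fun p : ℝ × ℝ => infComp w (Y p.1 p.2) i j)
      = fun p => (rotZ p.1 * rotY p.2 * torus d) i j := by
    funext p
    rw [(hY p.1 p.2).2]
  rw [e]
  have hM : Continuous fun p : ℝ × ℝ => rotZ p.1 * rotY p.2 * torus d := by
    refine (Continuous.matrix_mul ?_ ?_).matrix_mul continuous_const
    · refine continuous_matrix fun i j => ?_
      fin_cases i <;> fin_cases j <;> simp [rotZ] <;> fun_prop
    · refine continuous_matrix fun i j => ?_
      fin_cases i <;> fin_cases j <;> simp [rotY] <;> fun_prop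
  exact hM.matrix_elem i j

/-- `𝒰 ψ` is an eigenfunction of the sphere means, with the same eigenvalues. -/
theorem meanEig_iwOp468 {u : HeightOneSpectrum (𝓞 K)} {H : Finset (G K)}
    (hH : ∀ h ∈ H, IsLocalAtFin u h) {ψ : G K → ℂ} (hcont : Continuous ψ)
    {w : InfinitePlace K} {m : ℝ → ℂ} (hm : MeanEig ψ w m) : MeanEig (iwOp u H ψ) w m := by
  intro d hd Y hY g
  have hYc := continuous_euler468 w d Y hY
  have hF : ∀ h : G K, Continuous (Function.uncurry
      (fun α β : ℝ => ψ (g * h * Y α β) * ((Real.sin β : ℝ) : ℂ))) := by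
    intro h
    have h1 : Continuous fun p : ℝ × ℝ => g * h * Y p.1 p.2 := continuous_const.mul hYc
    have h2 : Continuous fun p : ℝ × ℝ => ((Real.sin p.2 : ℝ) : ℂ) := by fun_prop
    exact (hcont.comp h1).mul h2
  have hpt : ∀ α β : ℝ, iwOp u H ψ (g * Y α β) * ((Real.sin β : ℝ) : ℂ)
      = ((Real.sqrt (Ideal.absNorm u.asIdeal : ℝ) : ℝ) : ℂ)⁻¹
        * ∑ h ∈ H, ψ (g * h * Y α β) * ((Real.sin β : ℝ) : ℂ) := by
    intro α β
    rw [iwOp_apply468, mul_assoc, Finset.sum_mul]
    congr 1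
    refine Finset.sum_congr rfl fun h hh => ?_
    rw [mul_assoc g, comm_local468 (hH h hh) ((hY α β).1.2 u), ← mul_assoc]
  simp only [hpt]
  have hinner : ∀ α : ℝ,
      (∫ β in (0 : ℝ)..Real.pi, ((Real.sqrt (Ideal.absNorm u.asIdeal : ℝ) : ℝ) : ℂ)⁻¹
          * ∑ h ∈ H, ψ (g * h * Y α β) * ((Real.sin β : ℝ) : ℂ))
        = ((Real.sqrt (Ideal.absNorm u.asIdeal : ℝ) : ℝ) : ℂ)⁻¹
          * ∑ h ∈ H, ∫ β in (0 : ℝ)..Real.pi, ψ (g * h * Y α β) * ((Real.sin β : ℝ) : ℂ) := by
    intro α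
    rw [intervalIntegral.integral_const_mul, intervalIntegral.integral_finsetSum]
    intro h _
    exact ((hF h).comp (Continuous.prodMk_right α)).intervalIntegrable _ _
  simp only [hinner]
  have hG : ∀ h : G K, Continuous fun α : ℝ =>
      ∫ β in (0 : ℝ)..Real.pi, ψ (g * h * Y α β) * ((Real.sin β : ℝ) : ℂ) := fun h =>
    intervalIntegral.continuous_parametric_intervalIntegral_of_continuous (hF h)
      continuous_const
  rw [intervalIntegral.integral_const_mul,
    intervalIntegral.integral_finsetSum (fun h _ => (hG h).intervalIntegrable _ _)]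
  rw [iwOp_apply468]
  have e : ∑ h ∈ H, ∫ α in (0 : ℝ)..(2 * Real.pi),
      ∫ β in (0 : ℝ)..Real.pi, ψ (g * h * Y α β) * ((Real.sin β : ℝ) : ℂ)
      = m d * ∑ h ∈ H, ψ (g * h) := by
    rw [Finset.mul_sum]
    exact Finset.sum_congr rfl fun h _ => hm d hd Y hY (g * h)
  rw [e]
  ring

end Fermat.Agent.LT.T7.H468

end
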