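import Mathlib
import Fermat.Agent.LT.T7.H468.IwPerm

/-!
# Row LT, tower T7, leaf T7.L2.3.5.3 `SD534.OpsClassC` (helper468): the shift `Z^k`

OFF-MAIN.  A scalar uniformiser `z` at `u` is central in `GL₂(𝔸_K)` (`central_scalar468`), hence
the translation by `z ^ k` preserves every condition of `T7.IsEigFn` (`shift_inCls468`) and
commutes with every sum of right translates (`iwOp_shiftOp468`).
-/

set_option autoImplicit false
set_option linter.unusedSectionVars false
set_option linter.unusedVariables false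
set_option linter.style.haveILetI false

open AutomorphicForm IsDedekindDomain NumberField MeasureTheory Matrix
open scoped ComplexConjugate

noncomputable section

namespace Fermat.Agent.LT.T7.H468

open Fermat.Agent.LT.H556 Fermat.Agent.LT.H556.A0 Fermat.Agent.LT.T7
open Fermat.Agent.LT.T8.H864

variable {K : Type} [Field K] [NumberField K]

/-! ## Centrality -/

/-- A scalar uniformiser at `u` is central. -/
theorem central_scalar468 {u : HeightOneSpectrum (𝓞 K)} {z : G K}
    (hz : IsScalarUniformizerAt u z) (g : G K) : g * z = z * g := by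
  obtain ⟨hloc, c, -, hc⟩ := hz
  refine G_ext (fun w => ?_) (fun v => ?_)
  · rw [map_mul, map_mul, (trivAtInf_iff_hom w z).1 (hloc.1 w), mul_one, one_mul]
  · by_cases hv : v = u
    · subst hv
      rw [map_mul, map_mul]
      refine Units.ext ?_
      rw [Units.val_mul, Units.val_mul, coe_finCompHom, coe_finCompHom, hc]
      ext i j
      fin_cases i <;> fin_cases j <;>
        simp [Matrix.mul_apply, Fin.sum_univ_two, mul_comm]
    · rw [map_mul, map_mul, (trivAtFin_iff_hom v z).1 (hloc.2 v hv), mul_one, one_mul]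

/-- The powers of a scalar uniformiser are central. -/
theorem central_zpow468 {u : HeightOneSpectrum (𝓞 K)} {z : G K}
    (hz : IsScalarUniformizerAt u z) (k : ℤ) (g : G K) : g * z ^ k = z ^ k * g :=
  ((show Commute g z from central_scalar468 hz g).zpow_right k).eq

/-! ## Translation by a central element -/

/-- The translation by a central element preserves the class of every eigen-datum. -/
theorem central_inCls468 {𝔫 : Ideal (𝓞 K)} {r : G K} {u : HeightOneSpectrum (𝓞 K)}
    {c : EigData K} {ψ : G K → ℂ} {ζ : G K} (hζ : ∀ g : G K, g * ζ = ζ * g)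
    (hψ : SD534.InCls 𝔫 r u c ψ) : SD534.InCls 𝔫 r u c (fun x => ψ (x * ζ)) := by
  have sw : ∀ g y : G K, g * y * ζ = g * ζ * y := fun g y => by
    rw [mul_assoc, hζ y, ← mul_assoc]
  refine ⟨⟨⟨?_, ?_, ⟨?_, ?_, ?_, ?_⟩, ?_⟩, ?_, ?_⟩, ?_, ?_⟩
  · exact hψ.inv.cusp.cont.comp (continuous_mul_const ζ)
  · obtain ⟨C, hC⟩ := hψ.inv.cusp.bdd
    exact ⟨C, fun g => hC _⟩
  · intro γ g
    show ψ (T5.ratG γ * g * ζ) = ψ (g * ζ)
    rw [mul_assoc]
    exact hψ.inv.cusp.aut.left_inv γ _
  · intro u' hu' g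
    show ψ (g * u' * ζ) = ψ (g * ζ)
    rw [sw]
    exact hψ.inv.cusp.aut.level_inv u' hu' _
  · intro w k hk g
    show ψ (g * k * ζ) = T5.trivType k * ψ (g * ζ)
    rw [sw]
    exact hψ.inv.cusp.aut.arch_compact w k hk _
  · intro g
    show ψ (g * r * ζ) = ψ (g * ζ)
    rw [sw]
    exact hψ.inv.cusp.aut.ray _
  · intro μ hμ D hD n hn g
    have := hψ.inv.cusp.cuspidal μ hμ D hD n hn (g * ζ)
    simp only [mul_assoc] at this ⊢
    exact this
  · intro w z' hz' g
    show ψ (g * z' * ζ) = ψ (g * ζ)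
    rw [sw]
    exact hψ.inv.arch_scalar w z' hz' _
  · intro h h1 h2 h3 x
    show ψ (x * h * ζ) = ψ (x * ζ)
    rw [sw]
    exact hψ.inv.iw h h1 h2 h3 _
  · intro v hv
    obtain ⟨hT, hS⟩ := hψ.hecke v hv
    refine ⟨fun H hH g => ?_, fun z' hz' g => ?_⟩
    · have := hT H hH (g * ζ)
      simp only [sw]
      exact this
    · show ψ (g * z' * ζ) = c.b v * ψ (g * ζ)
      rw [sw]
      exact hS z' hz' _
  · intro w d hd Y hY g
    have := hψ.mean w d hd Y hY (g * ζ)
    simp only [sw]
    exact this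

/-- **The shift preserves the classes.** -/
theorem shift_inCls468 {𝔫 : Ideal (𝓞 K)} {r : G K} {u : HeightOneSpectrum (𝓞 K)} {z : G K}
    (hz : IsScalarUniformizerAt u z) {c : EigData K} {ψ : G K → ℂ} (k : ℤ)
    (hψ : SD534.InCls 𝔫 r u c ψ) : SD534.InCls 𝔫 r u c (shiftOp z k ψ) :=
  central_inCls468 (central_zpow468 hz k) hψ

/-- **The operators commute.** -/
theorem iwOp_shiftOp468 {u : HeightOneSpectrum (𝓞 K)} {z : G K}
    (hz : IsScalarUniformizerAt u z) (H : Finset (G K)) (ψ : G K → ℂ) (k : ℤ) :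
    iwOp u H (shiftOp z k ψ) = shiftOp z k (iwOp u H ψ) := by
  funext x
  unfold iwOp shiftOp
  refine congrArg _ (Finset.sum_congr rfl fun h _ => ?_)
  rw [mul_assoc, mul_assoc, central_zpow468 hz k h]

end Fermat.Agent.LT.T7.H468

end
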