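import Mathlib

/-!
# Row LT, tower T7, node T7.13 `ThinC`, adelic half over `F`: Iwasawa in `GL₂(ℂ)`
(helper468, OFF-MAIN; Mathlib only)

* `iwasawaC468`: every `[[a, b], [c, d]]` with `ad - bc ≠ 0` is
  `[[y, x], [0, 1]] · (r · k)`, `y, r > 0`, `k k* = 1`.
* `norm_embedding_unit468`, `norm_embedding_sq468`: for a number field `K` with ONE infinite
  place `w`, complex: `‖σ ε‖ = 1` for the units of `𝒪_K`, and `‖σ ϖ‖² = N v` for a generator `ϖ`
  of a prime `v`.
-/

set_option autoImplicit false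

open IsDedekindDomain NumberField
open scoped MatrixGroups ComplexConjugate

noncomputable section

namespace Fermat.Agent.LT.T7.H468

/-- The unitary factor of the Iwasawa decomposition. -/
def iwaK468 (c d u : ℂ) (r : ℝ) : Matrix (Fin 2) (Fin 2) ℂ :=
  !![u * conj d / r, -(u * conj c) / r; c / r, d / r]

theorem iwaK468_unitary {c d u : ℂ} {r : ℝ} (hr : ((r : ℝ) : ℂ) ≠ 0)
    (hr2 : ((r : ℝ) : ℂ) ^ 2 = c * conj c + d * conj d) (hu : u * conj u = 1) :
    iwaK468 c d u r * (iwaK468 c d u r).conjTranspose = 1 := by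
  have hct : (iwaK468 c d u r).conjTranspose
      = !![conj u * d / r, conj c / r; -(conj u * c) / r, conj d / r] := by
    ext i j
    fin_cases i <;> fin_cases j <;>
      simp [iwaK468, Matrix.conjTranspose_apply]
  rw [hct, iwaK468, Matrix.mul_fin_two, Matrix.one_fin_two]
  have e11 : u * conj d / r * (conj u * d / r) + -(u * conj c) / r * (-(conj u * c) / r) = 1 := by
    field_simp
    linear_combination (c * conj c + d * conj d) * hu - hr2
  have e12 : u * conj d / r * (conj c / r) + -(u * conj c) / r * (conj d / r) = 0 := by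
    field_simp
    ring
  have e21 : c / r * (conj u * d / r) + d / r * (-(conj u * c) / r) = 0 := by
    field_simp
    ring
  have e22 : c / r * (conj c / r) + d / r * (conj d / r) = 1 := by
    field_simp
    linear_combination -hr2
  rw [e11, e12, e21, e22]

/-- **Iwasawa decomposition in `GL₂(ℂ)`**, matrix form. -/
theorem iwasawaC468 (a b c d : ℂ) (hdet : a * d - b * c ≠ 0) :
    ∃ (x : ℂ) (y r : ℝ) (k : Matrix (Fin 2) (Fin 2) ℂ), 0 < y ∧ 0 < r ∧
      k * k.conjTranspose = 1 ∧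
      !![a, b; c, d] = !![((y : ℝ) : ℂ), x; 0, 1] * (!![((r : ℝ) : ℂ), 0; 0, ((r : ℝ) : ℂ)] * k) := by
  set Δ : ℂ := a * d - b * c with hΔ
  set N : ℝ := Complex.normSq c + Complex.normSq d with hN
  have hNpos : 0 < N := by
    rcases eq_or_ne c 0 with hc | hc
    · rcases eq_or_ne d 0 with hd | hd
      · exfalso
        apply hdet
        rw [hΔ, hc, hd]
        ring
      · have h1 := Complex.normSq_pos.2 hd
        have h2 := Complex.normSq_nonneg c
        linarith
    · have h1 := Complex.normSq_pos.2 hc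
      have h2 := Complex.normSq_nonneg d
      linarith
  set r : ℝ := Real.sqrt N with hr
  have hrpos : 0 < r := Real.sqrt_pos.2 hNpos
  have hr2 : r ^ 2 = N := Real.sq_sqrt hNpos.le
  have hnΔ : 0 < ‖Δ‖ := norm_pos_iff.2 hdet
  have hNC : ((N : ℝ) : ℂ) = c * conj c + d * conj d := by
    rw [hN, Complex.mul_conj, Complex.mul_conj]
    push_cast
    ring
  have hrC : ((r : ℝ) : ℂ) ^ 2 = c * conj c + d * conj d := by
    rw [← hNC, ← hr2]
    push_cast
    ring
  have hrne : ((r : ℝ) : ℂ) ≠ 0 := by exact_mod_cast hrpos.ne'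
  have hNne : ((N : ℝ) : ℂ) ≠ 0 := by exact_mod_cast hNpos.ne'
  have hnΔC : ((‖Δ‖ : ℝ) : ℂ) ≠ 0 := by exact_mod_cast hnΔ.ne'
  set u : ℂ := Δ / ((‖Δ‖ : ℝ) : ℂ) with hu
  have huu : u * conj u = 1 := by
    rw [hu, map_div₀, Complex.conj_ofReal, div_mul_div_comm, Complex.mul_conj,
      Complex.normSq_eq_norm_sq]
    push_cast
    field_simp
  refine ⟨(a * conj c + b * conj d) / ((N : ℝ) : ℂ), ‖Δ‖ / N, r, iwaK468 c d u r,
    div_pos hnΔ hNpos, hrpos, iwaK468_unitary hrne hrC huu, ?_⟩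
  rw [iwaK468, Matrix.mul_fin_two, Matrix.mul_fin_two]
  have hyu : (((‖Δ‖ / N : ℝ)) : ℂ) * u = Δ / ((N : ℝ) : ℂ) := by
    rw [hu]
    push_cast
    field_simp
  have e11 : (((‖Δ‖ / N : ℝ)) : ℂ) * (r * (u * conj d / r) + 0 * (c / r))
      + (a * conj c + b * conj d) / ((N : ℝ) : ℂ) * (0 * (u * conj d / r) + r * (c / r)) = a := by
    have h1 : (((‖Δ‖ / N : ℝ)) : ℂ) * (r * (u * conj d / r) + 0 * (c / r))
        = Δ / ((N : ℝ) : ℂ) * conj d := by
      rw [← hyu]
      field_simp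
      ring
    have h2 : (0 * (u * conj d / r) + (r : ℂ) * (c / r)) = c := by
      field_simp
      ring
    rw [h1, h2, hΔ]
    field_simp
    rw [hNC]
    ring
  have e12 : (((‖Δ‖ / N : ℝ)) : ℂ) * (r * (-(u * conj c) / r) + 0 * (d / r))
      + (a * conj c + b * conj d) / ((N : ℝ) : ℂ) * (0 * (-(u * conj c) / r) + r * (d / r))
      = b := by
    have h1 : (((‖Δ‖ / N : ℝ)) : ℂ) * (r * (-(u * conj c) / r) + 0 * (d / r))
        = -(Δ / ((N : ℝ) : ℂ) * conj c) := by
      rw [← hyu]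
      field_simp
      ring
    have h2 : (0 * (-(u * conj c) / r) + (r : ℂ) * (d / r)) = d := by
      field_simp
      ring
    rw [h1, h2, hΔ]
    field_simp
    rw [hNC]
    ring
  have e21 : (0 : ℂ) * (r * (u * conj d / r) + 0 * (c / r))
      + 1 * (0 * (u * conj d / r) + r * (c / r)) = c := by
    field_simp
    ring
  have e22 : (0 : ℂ) * (r * (-(u * conj c) / r) + 0 * (d / r))
      + 1 * (0 * (-(u * conj c) / r) + r * (d / r)) = d := by
    field_simp
    ring
  rw [e11, e12, e21, e22]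

/-! ## The norm at the unique infinite place -/

section Norm

variable {K : Type} [Field K] [NumberField K]

/-- For a number field with ONE infinite place `w`, complex: `‖σ x‖² = |N x|`. -/
theorem norm_embedding_sq_eq468 {w : InfinitePlace K} (hw : w.IsComplex)
    (huniq : ∀ w' : InfinitePlace K, w' = w) (x : K) :
    ‖w.embedding x‖ ^ 2 = ((|Algebra.norm ℚ x| : ℚ) : ℝ) := by
  rw [← InfinitePlace.prod_eq_abs_norm x,
    Fintype.prod_eq_single w (fun w' h => absurd (huniq w') h),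
    InfinitePlace.norm_embedding_eq]
  have hm : w.mult = 2 := InfinitePlace.mult_isComplex ⟨w, hw⟩
  rw [hm]

/-- The units of `𝒪_K` have absolute value `1` at the unique infinite place. -/
theorem norm_embedding_unit468 {w : InfinitePlace K} (hw : w.IsComplex)
    (huniq : ∀ w' : InfinitePlace K, w' = w) (ε : (𝓞 K)ˣ) :
    ‖w.embedding (algebraMap (𝓞 K) K (ε : 𝓞 K))‖ = 1 := by
  have h1 := norm_embedding_sq_eq468 hw huniq (algebraMap (𝓞 K) K (ε : 𝓞 K))
  have h2 : |((RingOfIntegers.norm ℚ (ε : 𝓞 K) : 𝓞 ℚ) : ℚ)| = 1 :=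
    NumberField.isUnit_iff_norm.1 ε.isUnit
  rw [RingOfIntegers.coe_norm] at h2
  have h3 : ‖w.embedding (algebraMap (𝓞 K) K (ε : 𝓞 K))‖ ^ 2 = 1 := by
    rw [h1]
    have : (|Algebra.norm ℚ (algebraMap (𝓞 K) K (ε : 𝓞 K))| : ℚ) = 1 := h2
    rw [this]
    norm_num
  have h4 : 0 ≤ ‖w.embedding (algebraMap (𝓞 K) K (ε : 𝓞 K))‖ := norm_nonneg _
  nlinarith [h3, h4]

/-- `‖σ ϖ‖² = N v` for a generator `ϖ` of the prime `v`. -/
theorem norm_embedding_sq468 {w : InfinitePlace K} (hw : w.IsComplex)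
    (huniq : ∀ w' : InfinitePlace K, w' = w) {v : HeightOneSpectrum (𝓞 K)} {ϖ : 𝓞 K}
    (hϖ : v.asIdeal = Ideal.span {ϖ}) :
    ‖w.embedding (algebraMap (𝓞 K) K ϖ)‖ ^ 2 = (Ideal.absNorm v.asIdeal : ℝ) := by
  rw [norm_embedding_sq_eq468 hw huniq, hϖ, Ideal.absNorm_span_singleton,
    ← Algebra.coe_norm_int]
  rw [Nat.cast_natAbs]
  push_cast
  rfl

/-- `‖σ ϖ‖ = √(N v)` for a generator `ϖ` of the prime `v`. -/
theorem norm_embedding_eq_sqrt468 {w : InfinitePlace K} (hw : w.IsComplex)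
    (huniq : ∀ w' : InfinitePlace K, w' = w) {v : HeightOneSpectrum (𝓞 K)} {ϖ : 𝓞 K}
    (hϖ : v.asIdeal = Ideal.span {ϖ}) :
    ‖w.embedding (algebraMap (𝓞 K) K ϖ)‖ = Real.sqrt (Ideal.absNorm v.asIdeal : ℝ) := by
  rw [← norm_embedding_sq468 hw huniq hϖ, Real.sqrt_sq (norm_nonneg _)]

end Norm

end Fermat.Agent.LT.T7.H468

end
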