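import Fermat.Agent.LT.T7.H468.HoroFFam
import Fermat.Agent.LT.T7.H468.IwasawaC

/-!
# Row LT, tower T7, node T7.13 `ThinC`, adelic half over `F`: `HoroCF468` CLOSED
(helper468, OFF-MAIN)

`horoCF468 : HoroCF468` (`HoroFSpec.lean`, VERBATIM): every cusp form of `A0.IsSph0CuspFormFor`
over a number field `K` with ONE infinite place, complex, has a horocycle family
`U κ x y = φ (b(x, y)_w · d(k) · g₁)` of level `M` (divisible by a prescribed `L`) through every
base point.

* `UF468_unit`: the units of `𝒪_K`.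
* `UF468_base`: the base point, by the Iwasawa decomposition at `w` (`IwasawaC.lean`).
-/

set_option autoImplicit false
set_option linter.unusedSectionVars false

open IsDedekindDomain NumberField AutomorphicForm
open scoped MatrixGroups Classical WithZero ComplexConjugate

noncomputable section

namespace Fermat.Agent.LT.T7.H468

open Fermat.Agent.LT.H556.A0 Fermat.Agent.LT.T8.H864 Fermat.Agent.LT.H51.MS4

variable {K : Type} [Field K] [NumberField K]

theorem near_of_integralBothF468 {v : HeightOneSpectrum (𝓞 K)}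
    {m : GL (Fin 2) (v.adicCompletion K)} (hm : IntegralBoth v m) : Near v 1 m := by
  have h1 : ∀ i j : Fin 2,
      Valued.v ((1 : Matrix (Fin 2) (Fin 2) (v.adicCompletion K)) i j) ≤ 1 := by
    intro i j
    have := (integralBoth_one v i j).1
    rwa [Units.val_one] at this
  intro i j
  constructor
  · rw [Matrix.sub_apply]
    exact Valued.v.map_sub_le (hm i j).1 (h1 i j)
  · rw [Matrix.sub_apply]
    exact Valued.v.map_sub_le (hm i j).2 (h1 i j)

/-! ## Elements at the complex place -/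

/-- The matrix at `w`, read in `ℂ` and put back in the completion. -/
theorem map_complexHom468_map {w : InfinitePlace K} (hw : w.IsComplex)
    (m : GL (Fin 2) w.Completion) :
    Matrix.GeneralLinearGroup.map (complexHom468 hw)
      (Matrix.GeneralLinearGroup.map
        (InfinitePlace.Completion.ringEquivComplexOfIsComplex hw).toRingHom m) = m := by
  refine Units.ext (Matrix.ext fun i j => ?_)
  rw [Matrix.GeneralLinearGroup.map_apply, Matrix.GeneralLinearGroup.map_apply]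
  exact (InfinitePlace.Completion.ringEquivComplexOfIsComplex hw).symm_apply_apply _

/-- `r · 1`, `r > 0`, at `w`. -/
theorem isArchPosScalar_locC468 {w : InfinitePlace K} (hw : w.IsComplex) {r : ℝ} (hr : 0 < r) :
    IsArchPosScalar w (locC468 hw (ut ((r : ℝ) : ℂ) 0 ((r : ℝ) : ℂ))) := by
  have hrC : ((r : ℝ) : ℂ) ≠ 0 := by exact_mod_cast hr.ne'
  refine ⟨isLocalAtInf_locC468 hw _, r, hr, ?_⟩
  rw [infComp_locC468, coe_ut 0 hrC hrC]
  ext i j
  fin_cases i <;> fin_cases j <;> simp [utMat]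

/-- A unitary matrix as an element of `GL₂(ℂ)`. -/
def unitaryGL468 (k : Matrix (Fin 2) (Fin 2) ℂ) (hk : k * k.conjTranspose = 1) : GL (Fin 2) ℂ :=
  ⟨k, k.conjTranspose, hk, mul_eq_one_comm.1 hk⟩

theorem coe_unitaryGL468 (k : Matrix (Fin 2) (Fin 2) ℂ) (hk : k * k.conjTranspose = 1) :
    ((unitaryGL468 k hk : GL (Fin 2) ℂ) : Matrix (Fin 2) (Fin 2) ℂ) = k := rfl

theorem isArchCompact_locC468 {w : InfinitePlace K} (hw : w.IsComplex)
    {k : Matrix (Fin 2) (Fin 2) ℂ} (hk : k * k.conjTranspose = 1) :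
    IsArchCompact w (locC468 hw (unitaryGL468 k hk)) := by
  refine ⟨isLocalAtInf_locC468 hw _, ?_, fun hr => absurd hw
    (InfinitePlace.not_isComplex_iff_isReal.2 hr)⟩
  rw [infComp_locC468, coe_unitaryGL468]
  exact hk

/-- **Iwasawa decomposition in `GL₂(ℂ)`**, group form. -/
theorem iwasawaGL468 (m : GL (Fin 2) ℂ) :
    ∃ (x : ℂ) (y r : ℝ) (k : Matrix (Fin 2) (Fin 2) ℂ) (hk : k * k.conjTranspose = 1),
      0 < y ∧ 0 < r ∧
      m = ut ((y : ℝ) : ℂ) x 1 * (ut ((r : ℝ) : ℂ) 0 ((r : ℝ) : ℂ) * unitaryGL468 k hk) := by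
  have hdet : (m : Matrix (Fin 2) (Fin 2) ℂ) 0 0 * (m : Matrix (Fin 2) (Fin 2) ℂ) 1 1
      - (m : Matrix (Fin 2) (Fin 2) ℂ) 0 1 * (m : Matrix (Fin 2) (Fin 2) ℂ) 1 0 ≠ 0 := by
    rw [← Matrix.det_fin_two]
    exact Matrix.GeneralLinearGroup.det_ne_zero m
  obtain ⟨x, y, r, k, hy, hr, hk, hdec⟩ := iwasawaC468 _ _ _ _ hdet
  refine ⟨x, y, r, k, hk, hy, hr, ?_⟩
  have hyC : ((y : ℝ) : ℂ) ≠ 0 := by exact_mod_cast hy.ne'
  have hrC : ((r : ℝ) : ℂ) ≠ 0 := by exact_mod_cast hr.ne'
  refine Units.ext ?_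
  rw [Units.val_mul, Units.val_mul, coe_ut x hyC one_ne_zero, coe_ut 0 hrC hrC,
    coe_unitaryGL468]
  change (m : Matrix (Fin 2) (Fin 2) ℂ)
    = !![((y : ℝ) : ℂ), x; 0, 1] * (!![((r : ℝ) : ℂ), 0; 0, ((r : ℝ) : ℂ)] * k)
  rw [← hdec]
  exact Matrix.eta_fin_two _

/-! ## The unit clause and the base point -/

section Family

variable {π : HeckeEigensystem K ℂ} {φ : G K → ℂ} (hφ : IsSph0CuspFormFor π φ)
  {w : InfinitePlace K} (hw : w.IsComplex) (huniq : ∀ w' : InfinitePlace K, w' = w)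
  {g₀ : G K} {M : ℕ} (hM : LvlF468 π.level g₀ M)

include hφ huniq hM

/-- UNITS. -/
theorem UF468_unit (κ : (𝓞 K ⧸ idM468 K M)ˣ) (ε : (𝓞 K)ˣ) (x : ℂ) (y : ℝ) (hy : 0 < y) :
    UF468 φ hw M g₀ κ (w.embedding (algebraMap (𝓞 K) K (ε : 𝓞 K)) * x) y
      = UF468 φ hw M g₀ (κ * clsF468 M (ε : 𝓞 K)) x y := by
  unfold UF468
  have hεu : IsUnit (Ideal.Quotient.mk (idM468 K M) (ε : 𝓞 K)) := ε.isUnit.map _
  have hε0 : algebraMap (𝓞 K) K (ε : 𝓞 K) ≠ 0 := by
    intro h
    have h0 : (ε : 𝓞 K) = 0 := (FaithfulSMul.algebraMap_injective (𝓞 K) K) (by rw [h, map_zero])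
    exact ε.ne_zero h0
  have hval : ∀ v : HeightOneSpectrum (𝓞 K),
      v.valuation K (algebraMap (𝓞 K) K (ε : 𝓞 K)) = 1 := by
    intro v
    rw [val_eq_one_iff468]
    intro hm
    exact v.isPrime.ne_top (Ideal.eq_top_of_isUnit_mem _ hm ε.isUnit)
  have hcong : Ideal.Quotient.mk (idM468 K M) (repF468 M κ⁻¹)
      = Ideal.Quotient.mk (idM468 K M)
          ((ε : 𝓞 K) * repF468 M (κ * clsF468 M (ε : 𝓞 K))⁻¹) := by
    rw [map_mul, mk_repF468, mk_repF468, ← clsF468_coe hεu, ← Units.val_mul, mul_inv_rev,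
      mul_inv_cancel_left]
  have hfin := fun v : HeightOneSpectrum (𝓞 K) =>
    hfin_oneF468 hφ huniq hM v (a := algebraMap (𝓞 K) K (ε : 𝓞 K)) 0 κ⁻¹
      (κ * clsF468 M (ε : 𝓞 K))⁻¹
      (hval v)
      (by rw [← map_mul]; exact val_sub_le468 v hcong)
      (by rw [← map_one (algebraMap (𝓞 K) K), ← map_sub]; exact val_le_one468 v _)
      (by rw [map_zero]; exact zero_le)
  have key := transportF468 hφ hw huniq M g₀ (a := algebraMap (𝓞 K) K (ε : 𝓞 K)) 0
    hε0 x hy.ne' _ _ 1 (fun w' => map_one _) hfin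
  rw [map_zero, add_zero, norm_embedding_unit468 hw huniq ε, one_mul, mul_one] at key
  exact key

/-- The base point. -/
theorem UF468_base : ∃ (x₀ : ℂ) (y₀ : ℝ), 0 < y₀ ∧ UF468 φ hw M g₀ 1 x₀ y₀ = φ g₀ := by
  obtain ⟨x₀, y₀, r, k, hk, hy₀, hr, hdec⟩ := iwasawaGL468
    (Matrix.GeneralLinearGroup.map
      (InfinitePlace.Completion.ringEquivComplexOfIsComplex hw).toRingHom (infCompHom w g₀))
  refine ⟨x₀, y₀, hy₀, ?_⟩
  unfold UF468
  set g' : G K := bC468 hw x₀ y₀ *
    dKF468 M (algebraMap (𝓞 K) K (repF468 M (1 : (𝓞 K ⧸ idM468 K M)ˣ)⁻¹)) * g1F468 M g₀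
    with hg'
  have h1 : φ (g' * locC468 hw (ut ((r : ℝ) : ℂ) 0 ((r : ℝ) : ℂ)) *
      locC468 hw (unitaryGL468 k hk)) = φ g' := by
    rw [hφ.arch_compact w _ (isArchCompact_locC468 hw hk),
      hφ.arch_scalar w _ (isArchPosScalar_locC468 hw hr)]
  rw [← h1]
  refine phi_congr hφ.left_inv hφ.level_inv 1 _ _ (fun w' => ?_) (fun v => ?_)
  · obtain rfl := huniq w'
    rw [map_mul, map_mul, hg', map_mul, map_mul, infCompHom_dKF468, infCompHom_g1F468,
      mul_one, mul_one, map_one, one_mul, bC468, infCompHom_locC468, infCompHom_locC468,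
      infCompHom_locC468, mul_assoc, ← map_mul, ← map_mul, ← hdec]
    exact map_complexHom468_map hw _
  · rw [map_mul, map_mul, hg', map_mul, map_mul, finCompHom_locC468, finCompHom_locC468,
      mul_one, mul_one, map_one, inv_one, mul_one, bC468, finCompHom_locC468, one_mul]
    by_cases hv : v ∈ TMF468 K M
    · rw [finCompHom_g1F468_mem g₀ hv, ← mul_assoc]
      refine hM.conj v _ ?_
      rw [finCompHom_dKF468_mem _ hv]
      refine near_ratFin_ut (val_repF468 hv _) (map_one _) ?_ ?_ ?_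
      · have hc : Ideal.Quotient.mk (idM468 K M) (repF468 M (1 : (𝓞 K ⧸ idM468 K M)ˣ)⁻¹)
            = Ideal.Quotient.mk (idM468 K M) 1 := by
          rw [mk_repF468, inv_one, Units.val_one, map_one]
        have := val_sub_le468 v hc
        rwa [map_one] at this
      · rw [map_zero]
        exact zero_le
      · rw [sub_self, map_zero]
        exact zero_le
    · rw [finCompHom_g1F468_notMem g₀ hv, finCompHom_dKF468_notMem _ hv, mul_one, mul_one]
      have hv1 := valuation_eq_one_of_notMemF468 hv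
      refine locLevel_of_near_nat v ?_
      have hn : Near v 1 (finCompHom v g₀)⁻¹ :=
        (near_of_integralBothF468 (hM.integral v hv1)).inv
      refine hn.mono ?_
      have := valuation_le_of_dvd v hM.dvd
      rwa [hv1] at this

end Family

/-! ## The leaf -/

/-- **The adelic half of the T8 method over `K`**, VERBATIM (`HoroFSpec.lean`). -/
theorem horoCF468 : HoroCF468 := by
  intro K _ _ w hw huniq π φ hφ g₀ L hL
  obtain ⟨M, hLM, hM⟩ := exists_lvlF468 π.level π.level_ne_bot g₀ L hL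
  obtain ⟨C, hC⟩ := hφ.bdd
  refine ⟨M, UF468 φ hw M g₀, C, hLM, ?_, UF468_base hφ hw huniq hM⟩
  exact
    { M_pos := Nat.pos_of_ne_zero hM.ne_zero
      cont := fun κ => UF468_cont hφ hw huniq hM κ
      bdd := fun κ x y _ => hC _
      periodic := fun κ ω x y hy => UF468_periodic hφ hw huniq hM κ ω x y hy
      unit := fun κ ε x y hy => UF468_unit hφ hw huniq hM κ ε x y hy
      hecke := fun v ϖ hgen hnot R hcard hdist κ x y hy =>
        UF468_hecke hφ hw huniq hM ⟨hgen, hnot⟩ R hcard hdist κ x y hy }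

end Fermat.Agent.LT.T7.H468

end
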