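import Mathlib
import Fermat.Agent.LT.T7.H468.OpsShift
import Fermat.Agent.LT.T7.H468.OpsIw

/-!
# Row LT, tower T7, leaf T7.L2.3.5.3 `SD534.OpsClassC` -- PROVED (helper468)

OFF-MAIN.  `opsClassC468 K : SD534.OpsClassC K` VERBATIM against
`LT/T7/H534/DownBasisSpec.lean` (helper534), UNCONDITIONAL, every number field.

* `shift`, `comm` : a scalar uniformiser is central (`OpsShift.lean`);
* `iw` : an Iwahori coset system is complete (`IwPerm.lean`, pigeonhole on the invariant
  `M₀₁ / M₁₁ mod 𝔭`), so `𝒰 ψ` is invariant under the Iwahori subgroup at `u` and under `U(𝔫)`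
  (`u ∣ 𝔫`); all the other conditions concern elements which are trivial at `u`, which commute
  with the members of `H`; constant term: `T1.AddFundDomC`; sphere means: `T2.H472.locCont472`
  (`OpsIw.lean`).
-/

set_option autoImplicit false
set_option linter.unusedSectionVars false
set_option linter.unusedVariables false
set_option linter.style.haveILetI false

open AutomorphicForm IsDedekindDomain NumberField MeasureTheory Matrix
open scoped ComplexConjugate

noncomputable section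

namespace Fermat.Agent.LT.T7.H468

open Fermat.Agent.LT.H556 Fermat.Agent.LT.H556.A0 Fermat.Agent.LT.T7
open Fermat.Agent.LT.T8.H864

variable {K : Type} [Field K] [NumberField K]

/-- **The Iwahori operator preserves the classes.** -/
theorem iw_inCls468 {𝔫 : Ideal (𝓞 K)} {r : G K} {u : HeightOneSpectrum (𝓞 K)}
    {H : Finset (G K)} (hu : u.asIdeal ∣ 𝔫) (hr : T5.IsRayGen r) (hH : IsIwCosetSystem u H)
    {c : EigData K} {ψ : G K → ℂ} (hψ : SD534.InCls 𝔫 r u c ψ) :
    SD534.InCls 𝔫 r u c (iwOp u H ψ) := by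
  have hloc : ∀ h ∈ H, IsLocalAtFin u h := fun h hh => (hH.2.1 h hh).1
  refine ⟨⟨⟨?_, ?_, ⟨?_, ?_, ?_, ?_⟩, ?_⟩, ?_, ?_⟩, ?_, ?_⟩
  · exact continuous_iwOp468 u H hψ.inv.cusp.cont
  · exact bdd_iwOp468 u H hψ.inv.cusp.bdd
  · intro γ g
    rw [iwOp_apply468, iwOp_apply468]
    congr 1
    refine Finset.sum_congr rfl fun h _ => ?_
    rw [mul_assoc]
    exact hψ.inv.cusp.aut.left_inv γ _
  · intro u' hu' g
    exact iwOp_level468 hu hH hψ.inv.iw hψ.inv.cusp.aut.level_inv hu' g
  · intro w k hk g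
    exact iwOp_eigen468 hloc (hk.1.2 u)
      (fun g => hψ.inv.cusp.aut.arch_compact w k hk g) g
  · intro g
    have := iwOp_eigen468 hloc (hr.1 u) (c := 1)
      (fun g => by rw [one_mul]; exact hψ.inv.cusp.aut.ray g) g
    rwa [one_mul] at this
  · exact isCuspidalFn_iwOp468 u H hψ.inv.cusp.cont hψ.inv.cusp.bdd hψ.inv.cusp.cuspidal
  · intro w z' hz' g
    have := iwOp_eigen468 hloc (hz'.1.2 u) (c := 1)
      (fun g => by rw [one_mul]; exact hψ.inv.arch_scalar w z' hz' g) g
    rwa [one_mul] at this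
  · intro κ h1 h2 h3 x
    exact iwOp_iw468 hH hψ.inv.iw ⟨h1, fun v hv => h2 v (fun j _ => hv)⟩
      (h3 0 Nat.zero_lt_one) x
  · intro v hv
    have hvu : u ≠ v := fun e => hv (e ▸ hu)
    obtain ⟨hT, hS⟩ := hψ.hecke v hv
    refine ⟨fun H' hH' g => ?_, fun z' hz' g => ?_⟩
    · exact iwOp_sum_eigen468 hloc (fun h' hh' => (hH'.2.1 h' hh').1.2 u hvu) (hT H' hH') g
    · exact iwOp_eigen468 hloc (hz'.1.2 u hvu) (hS z' hz') g
  · intro w
    exact meanEig_iwOp468 hloc hψ.inv.cusp.cont (hψ.mean w)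

variable (K)

/-- **LEAF T7.L2.3.5.3 = DB.3 OPS, PROVED.** -/
theorem opsClassC468 : SD534.OpsClassC K := by
  intro 𝔫 r u H z h𝔫 hr hu hH hz
  exact ⟨fun c ψ k hψ => shift_inCls468 hz k hψ, fun c ψ hψ => iw_inCls468 hu hr hH hψ,
    fun ψ k => iwOp_shiftOp468 hz H ψ k⟩

end Fermat.Agent.LT.T7.H468

end
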