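import Mathlib
import Fermat.Agent.LT.H556.A0

/-!
# Row LT, tower T7, node T7.13 `ThinC` (T8 method over `F`): SPEC of the ADELIC HALF
(helper468, OFF-MAIN, candidate; the sub-architect of T7.13 rules)

The analogue over a number field `K` with ONE infinite place `w`, complex (`K` imaginary
quadratic), of `T8.HoroData` / `T8.HoroC` (`LT/T8/Spec.lean`, helper19), closed over `ℚ` in
`LT/T8/H468/Horo.lean`.

* `HoroDataF468 K w M A B U C`: a finite family `U κ : ℂ × ℝ_{>0} → ℂ`, `κ ∈ (𝒪_K / M)ˣ`, of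
  functions bounded by `C`, continuous, periodic in `x` under the lattice `M 𝒪_K ⊂ ℂ`, with the
  function form of the Hecke relation at every PRINCIPAL prime `v = (ϖ)` not dividing `M`, for
  every generator `ϖ` and every residue system `R` modulo `ϖ`:

  `∑_{r ∈ R} U (κ ϖ) ((x + M r) / ϖ) (y / |ϖ|) + B v · U (κ ϖ⁻¹) (ϖ x) (|ϖ| y)
      = √(N v) · A v · U κ x y`.

  Moreover `U κ (ε x) y = U (κ ε) x y` for the units `ε` of `𝒪_K`.
  (`U κ x y = φ (b(x, y)_∞ · d(k) · g₁)`, `b(x, y) = [[y, x], [0, 1]] ∈ GL₂(ℂ)`, `k` a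
  representative of `κ⁻¹`, `d(k) = [[k, 0], [0, 1]]` at the places dividing `M`, `g₁` the finite
  part of the base point at the places dividing `M`.  The phase `ϖ / |ϖ|` is absorbed by
  `U(2)`, the units of `𝒪_K` are covered by "every generator".)
* `HoroCF468`: every cusp form of `A0.IsSph0CuspFormFor` over such a `K` has such a family through
  every base point `g₀` (up to the Iwasawa decomposition at `w`), of a level `M` divisible by a
  prescribed `L`.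
-/

set_option autoImplicit false

open IsDedekindDomain NumberField AutomorphicForm
open scoped MatrixGroups Classical

noncomputable section

namespace Fermat.Agent.LT.T7.H468

open Fermat.Agent.LT.H556.A0

variable {K : Type} [Field K] [NumberField K]

/-- The ideal `M 𝒪_K`. -/
abbrev idM468 (K : Type) [Field K] [NumberField K] (M : ℕ) : Ideal (𝓞 K) :=
  Ideal.span {((M : ℕ) : 𝓞 K)}

/-- The class of `ϖ` in `(𝒪_K / M)ˣ` (`1` if `ϖ` is not prime to `M`). -/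
def clsF468 (M : ℕ) (ϖ : 𝓞 K) : (𝓞 K ⧸ idM468 K M)ˣ :=
  if h : IsUnit (Ideal.Quotient.mk (idM468 K M) ϖ) then h.unit else 1

theorem clsF468_coe {M : ℕ} {ϖ : 𝓞 K} (h : IsUnit (Ideal.Quotient.mk (idM468 K M) ϖ)) :
    ((clsF468 M ϖ : (𝓞 K ⧸ idM468 K M)ˣ) : 𝓞 K ⧸ idM468 K M)
      = Ideal.Quotient.mk (idM468 K M) ϖ := by
  unfold clsF468
  rw [dif_pos h]
  exact h.unit_spec

/-- **Horocycle data over `K`** (one infinite place `w`, complex) of level `M`. -/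
structure HoroDataF468 (K : Type) [Field K] [NumberField K] (w : InfinitePlace K) (M : ℕ)
    (A B : HeightOneSpectrum (𝓞 K) → ℂ) (U : (𝓞 K ⧸ idM468 K M)ˣ → ℂ → ℝ → ℂ) (C : ℝ) :
    Prop where
  M_pos : 0 < M
  cont : ∀ κ : (𝓞 K ⧸ idM468 K M)ˣ,
    ContinuousOn (fun p : ℂ × ℝ => U κ p.1 p.2) {p : ℂ × ℝ | 0 < p.2}
  bdd : ∀ (κ : (𝓞 K ⧸ idM468 K M)ˣ) (x : ℂ) (y : ℝ), 0 < y → ‖U κ x y‖ ≤ C
  periodic : ∀ (κ : (𝓞 K ⧸ idM468 K M)ˣ) (ω : 𝓞 K) (x : ℂ) (y : ℝ), 0 < y →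
    U κ (x + (M : ℂ) * w.embedding (ω : K)) y = U κ x y
  unit : ∀ (κ : (𝓞 K ⧸ idM468 K M)ˣ) (ε : (𝓞 K)ˣ) (x : ℂ) (y : ℝ), 0 < y →
    U κ (w.embedding ((ε : 𝓞 K) : K) * x) y = U (κ * clsF468 M (ε : 𝓞 K)) x y
  hecke : ∀ (v : HeightOneSpectrum (𝓞 K)) (ϖ : 𝓞 K), v.asIdeal = Ideal.span {ϖ} →
    ((M : ℕ) : 𝓞 K) ∉ v.asIdeal →
    ∀ R : Finset (𝓞 K), R.card = Ideal.absNorm v.asIdeal →
      (∀ r ∈ R, ∀ r' ∈ R, r ≠ r' → r - r' ∉ v.asIdeal) →
      ∀ (κ : (𝓞 K ⧸ idM468 K M)ˣ) (x : ℂ) (y : ℝ), 0 < y →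
        ∑ r ∈ R, U (κ * clsF468 M ϖ)
            ((x + (M : ℂ) * w.embedding (r : K)) / w.embedding (ϖ : K))
            (y / ‖w.embedding (ϖ : K)‖)
          + B v * U (κ * (clsF468 M ϖ)⁻¹) (w.embedding (ϖ : K) * x)
              (‖w.embedding (ϖ : K)‖ * y)
        = ((Real.sqrt (Ideal.absNorm v.asIdeal : ℝ) : ℝ) : ℂ) * A v * U κ x y

/-- **The adelic half of the T8 method over `K`.** -/
def HoroCF468 : Prop :=
  ∀ (K : Type) [Field K] [NumberField K] (w : InfinitePlace K), w.IsComplex →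
    (∀ w' : InfinitePlace K, w' = w) →
    ∀ (π : HeckeEigensystem K ℂ) (φ : G K → ℂ), IsSph0CuspFormFor π φ →
      ∀ (g₀ : G K) (L : ℕ), L ≠ 0 →
        ∃ (M : ℕ) (U : (𝓞 K ⧸ idM468 K M)ˣ → ℂ → ℝ → ℂ) (C : ℝ),
          L ∣ M ∧ HoroDataF468 K w M π.a π.b U C ∧
            ∃ (x₀ : ℂ) (y₀ : ℝ), 0 < y₀ ∧ U 1 x₀ y₀ = φ g₀

end Fermat.Agent.LT.T7.H468

end
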