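import Fermat.Agent.LT.H51.MS4D
import Fermat.Agent.LT.T8.H864.Coset
import Fermat.Agent.LT.T7.H468.HoroFSpec

/-!
# Row LT, tower T7, node T7.13 `ThinC`, adelic half over `F`: the transport lemma
(helper468, OFF-MAIN)

On `LT/H556/A0.lean` (556), `LT/T8/H864/{Local,Coset}.lean` (864), `LT/H51/MS4{A..D}.lean` (51).
The number field `K` is arbitrary in this file; `w` is a complex place of `K`.

* `complexHom468 hw : ℂ →+* w.Completion`, `bC468 hw x y = [[y, x], [0, 1]]_w`,
  `kC468 hw u = [[u, 0], [0, 1]]_w` (in `U(2)` for `|u| = 1`).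
* `LvlF468 𝔫 g₀ M`, `exists_lvlF468`; `dKF468 M k`, `g1F468 M g₀` (finite part of `g₀` at the places
  dividing `M`).
* `transportF468`, `near_dKF468`.
-/

set_option autoImplicit false
set_option linter.unusedSectionVars false

open IsDedekindDomain NumberField AutomorphicForm
open scoped MatrixGroups Classical WithZero

noncomputable section

namespace Fermat.Agent.LT.T7.H468

open Fermat.Agent.LT.H556.A0 Fermat.Agent.LT.T8.H864 Fermat.Agent.LT.H51.MS4

variable {K : Type} [Field K] [NumberField K]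

/-! ## The complex numbers inside the completion at a complex place -/

/-- The complex numbers inside the completion at a complex place. -/
def complexHom468 {w : InfinitePlace K} (hw : w.IsComplex) : ℂ →+* w.Completion :=
  (InfinitePlace.Completion.ringEquivComplexOfIsComplex hw).symm.toRingHom

theorem extensionEmbedding_complexHom468 {w : InfinitePlace K} (hw : w.IsComplex) (z : ℂ) :
    InfinitePlace.Completion.extensionEmbedding w (complexHom468 hw z) = z := by
  rw [← InfinitePlace.Completion.ringEquivComplexOfIsComplex_apply hw]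
  exact (InfinitePlace.Completion.ringEquivComplexOfIsComplex hw).apply_symm_apply z

theorem continuous_complexHom468 {w : InfinitePlace K} (hw : w.IsComplex) :
    Continuous (complexHom468 hw) :=
  (InfinitePlace.Completion.isometryEquivComplexOfIsComplex hw).symm.continuous

theorem extensionEmbedding_algebraMapF468 (w : InfinitePlace K) (a : K) :
    InfinitePlace.Completion.extensionEmbedding w (algebraMap K w.Completion a)
      = w.embedding a := by
  simp

theorem complexHom468_embedding {w : InfinitePlace K} (hw : w.IsComplex) (a : K) :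
    complexHom468 hw (w.embedding a) = algebraMap K w.Completion a := by
  have h : InfinitePlace.Completion.ringEquivComplexOfIsComplex hw
      (algebraMap K w.Completion a) = w.embedding a := by
    rw [InfinitePlace.Completion.ringEquivComplexOfIsComplex_apply,
      extensionEmbedding_algebraMapF468]
  rw [← h]
  exact (InfinitePlace.Completion.ringEquivComplexOfIsComplex hw).symm_apply_apply _

/-- The local element at the complex place `w` given by a complex matrix. -/
def locC468 {w : InfinitePlace K} (hw : w.IsComplex) : GL (Fin 2) ℂ →* G K :=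
  (locInf w).comp (Matrix.GeneralLinearGroup.map (complexHom468 hw))

theorem locC468_apply {w : InfinitePlace K} (hw : w.IsComplex) (m : GL (Fin 2) ℂ) :
    locC468 hw m = locInf w (Matrix.GeneralLinearGroup.map (complexHom468 hw) m) := rfl

theorem infCompHom_locC468 {w : InfinitePlace K} (hw : w.IsComplex) (m : GL (Fin 2) ℂ) :
    infCompHom w (locC468 hw m) = Matrix.GeneralLinearGroup.map (complexHom468 hw) m := by
  rw [locC468_apply, infCompHom_locInf_self]

theorem finCompHom_locC468 {w : InfinitePlace K} (hw : w.IsComplex) (m : GL (Fin 2) ℂ)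
    (v : HeightOneSpectrum (𝓞 K)) : finCompHom v (locC468 hw m) = 1 := by
  rw [locC468_apply, finCompHom_locInf]

theorem isLocalAtInf_locC468 {w : InfinitePlace K} (hw : w.IsComplex) (m : GL (Fin 2) ℂ) :
    IsLocalAtInf w (locC468 hw m) := isLocalAtInf_locInf w _

theorem infComp_locC468 {w : InfinitePlace K} (hw : w.IsComplex) (m : GL (Fin 2) ℂ) :
    infComp w (locC468 hw m) = (m : Matrix (Fin 2) (Fin 2) ℂ) := by
  rw [locC468_apply, infComp_locInf_self]
  refine Matrix.ext fun i j => ?_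
  exact extensionEmbedding_complexHom468 hw _

theorem continuous_locC468 {w : InfinitePlace K} (hw : w.IsComplex) :
    Continuous (locC468 (K := K) hw) := by
  have h : Continuous (Matrix.GeneralLinearGroup.map (n := Fin 2) (complexHom468 hw)) := by
    unfold Matrix.GeneralLinearGroup.map
    apply Continuous.units_map
    exact Continuous.matrix_map continuous_id (continuous_complexHom468 hw)
  exact (continuous_locInf w).comp h

/-- `b(x, y)_w = [[y, x], [0, 1]]_w`. -/
def bC468 {w : InfinitePlace K} (hw : w.IsComplex) (x : ℂ) (y : ℝ) : G K :=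
  locC468 hw (ut (y : ℂ) x 1)

/-- `[[u, 0], [0, 1]]_w`. -/
def kC468 {w : InfinitePlace K} (hw : w.IsComplex) (u : ℂ) : G K :=
  locC468 hw (ut u 0 1)

theorem isArchCompact_kC468 {w : InfinitePlace K} (hw : w.IsComplex) {u : ℂ}
    (hu : u * (starRingEnd ℂ) u = 1) : IsArchCompact w (kC468 hw u) := by
  have hu0 : u ≠ 0 := by
    intro h
    rw [h, zero_mul] at hu
    exact zero_ne_one hu
  refine ⟨isLocalAtInf_locC468 hw _, ?_, fun hr => absurd hw
    (InfinitePlace.not_isComplex_iff_isReal.2 hr)⟩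
  rw [kC468, infComp_locC468, coe_ut 0 hu0 one_ne_zero]
  ext i j
  fin_cases i <;> fin_cases j <;>
    simp [utMat, Matrix.mul_apply, Fin.sum_univ_two, Matrix.conjTranspose_apply, hu]

/-- `(x, y) ↦ [[y, x], [0, 1]] ∈ GL₂(ℂ)` is continuous on `y ≠ 0`. -/
theorem continuousOn_utC468 :
    ContinuousOn (fun p : ℂ × ℝ => ut ((p.2 : ℝ) : ℂ) p.1 1) {p : ℂ × ℝ | p.2 ≠ 0} := by
  rw [continuousOn_iff_continuous_restrict, Units.continuous_iff]
  have hne : ∀ p : {p : ℂ × ℝ | p.2 ≠ 0}, ((p.1.2 : ℝ) : ℂ) ≠ 0 := fun p => by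
    have := p.2
    exact_mod_cast this
  have hc1 : Continuous fun p : {p : ℂ × ℝ | p.2 ≠ 0} => p.1.1 := by fun_prop
  have hc2 : Continuous fun p : {p : ℂ × ℝ | p.2 ≠ 0} => ((p.1.2 : ℝ) : ℂ) := by fun_prop
  have hc3 : Continuous fun p : {p : ℂ × ℝ | p.2 ≠ 0} => (((p.1.2 : ℝ) : ℂ))⁻¹ :=
    hc2.inv₀ hne
  have hc4 : Continuous fun p : {p : ℂ × ℝ | p.2 ≠ 0} =>
      -(p.1.1 / (((p.1.2 : ℝ) : ℂ) * 1)) := by
    simp only [mul_one]
    exact (hc1.div hc2 hne).neg
  constructor
  · have h : (fun p : {p : ℂ × ℝ | p.2 ≠ 0} =>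
        ((ut ((p.1.2 : ℝ) : ℂ) p.1.1 1 : GL (Fin 2) ℂ) : Matrix (Fin 2) (Fin 2) ℂ)) =
        fun p => utMat ((p.1.2 : ℝ) : ℂ) p.1.1 1 := by
      funext p
      exact coe_ut _ (hne p) one_ne_zero
    change Continuous fun p : {p : ℂ × ℝ | p.2 ≠ 0} =>
        ((ut ((p.1.2 : ℝ) : ℂ) p.1.1 1 : GL (Fin 2) ℂ) : Matrix (Fin 2) (Fin 2) ℂ)
    rw [h]
    refine continuous_matrix fun i j => ?_
    fin_cases i <;> fin_cases j <;> simp [utMat] <;> first | exact hc1 | exact hc2 | fun_prop
  · have h : (fun p : {p : ℂ × ℝ | p.2 ≠ 0} =>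
        (((ut ((p.1.2 : ℝ) : ℂ) p.1.1 1)⁻¹ : GL (Fin 2) ℂ) : Matrix (Fin 2) (Fin 2) ℂ)) =
        fun p => utMat (((p.1.2 : ℝ) : ℂ))⁻¹ (-(p.1.1 / (((p.1.2 : ℝ) : ℂ) * 1))) (1 : ℂ)⁻¹ := by
      funext p
      rw [ut_inv _ (hne p) one_ne_zero, coe_ut _ (inv_ne_zero (hne p)) (inv_ne_zero one_ne_zero)]
    change Continuous fun p : {p : ℂ × ℝ | p.2 ≠ 0} =>
        (((ut ((p.1.2 : ℝ) : ℂ) p.1.1 1)⁻¹ : GL (Fin 2) ℂ) : Matrix (Fin 2) (Fin 2) ℂ)
    rw [h]
    refine continuous_matrix fun i j => ?_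
    fin_cases i <;> fin_cases j <;> simp [utMat] <;>
      first | exact hc3 | exact hc4 | fun_prop

/-- For a continuous `φ`, `(x, y) ↦ φ (b(x, y)_w g)` is continuous on `y ≠ 0`. -/
theorem continuousOn_comp_bC468 {w : InfinitePlace K} (hw : w.IsComplex) {φ : G K → ℂ}
    (hφ : Continuous φ) (g : G K) :
    ContinuousOn (fun p : ℂ × ℝ => φ (bC468 hw p.1 p.2 * g)) {p : ℂ × ℝ | p.2 ≠ 0} :=
  hφ.comp_continuousOn
    (((continuous_locC468 hw).comp_continuousOn continuousOn_utC468).mul continuousOn_const)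

/-! ## Levels of a base point -/

/-- `M` is a level of the base point `g₀`. -/
structure LvlF468 (𝔫 : Ideal (𝓞 K)) (g₀ : G K) (M : ℕ) : Prop where
  ne_zero : M ≠ 0
  dvd : Ideal.absNorm 𝔫 ∣ M
  integral : ∀ v : HeightOneSpectrum (𝓞 K), v.valuation K (M : K) = 1 →
    IntegralBoth v (finCompHom v g₀)
  conj : ∀ (v : HeightOneSpectrum (𝓞 K)) (Y : GL (Fin 2) (v.adicCompletion K)),
    Near v (v.valuation K (M : K)) Y →
      LocLevel 𝔫 v ((finCompHom v g₀)⁻¹ * Y * finCompHom v g₀)

theorem exists_lvlF468 (𝔫 : Ideal (𝓞 K)) (h𝔫 : 𝔫 ≠ ⊥) (g₀ : G K) (L : ℕ) (hL : L ≠ 0) :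
    ∃ M : ℕ, L ∣ M ∧ LvlF468 𝔫 g₀ M := by
  obtain ⟨M₀, hM0, hdvd, hint, hconj⟩ := exists_level 𝔫 h𝔫 g₀
  have hle : ∀ v : HeightOneSpectrum (𝓞 K),
      v.valuation K ((M₀ * L : ℕ) : K) ≤ v.valuation K (M₀ : K) :=
    fun v => valuation_le_of_dvd v (dvd_mul_right M₀ L)
  refine ⟨M₀ * L, dvd_mul_left L M₀, mul_ne_zero hM0 hL, dvd_mul_of_dvd_left hdvd L, ?_, ?_⟩
  · intro v hv
    apply hint v
    exact le_antisymm (valuation_natCast_le_one v M₀) (hv ▸ hle v)
  · intro v Y hY
    exact hconj v Y (hY.mono (hle v))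

/-! ## The places dividing `M`, the twist `d(k)` and the cut base point -/

/-- The places dividing `M`. -/
def TMF468 (K : Type) [Field K] [NumberField K] (M : ℕ) : Set (HeightOneSpectrum (𝓞 K)) :=
  {v | v.valuation K (M : K) < 1}

theorem valuation_eq_one_of_notMemF468 {M : ℕ} {v : HeightOneSpectrum (𝓞 K)}
    (hv : v ∉ TMF468 K M) : v.valuation K (M : K) = 1 :=
  le_antisymm (valuation_natCast_le_one v M) (not_lt.1 hv)

/-- `[[k, 0], [0, 1]]` at the places dividing `M`. -/
def dKF468 (M : ℕ) (k : K) : G K := cut (TMF468 K M) False (diagG (ut k 0 1))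

theorem infCompHom_dKF468 (M : ℕ) (k : K) (w : InfinitePlace K) :
    infCompHom w (dKF468 M k) = 1 :=
  infCompHom_cut_false _ _ _

theorem finCompHom_dKF468_mem {M : ℕ} (k : K) {v : HeightOneSpectrum (𝓞 K)}
    (hv : v ∈ TMF468 K M) : finCompHom v (dKF468 M k) = ratFin v (ut k 0 1) := by
  rw [dKF468, finCompHom_cut_of_mem _ _ hv, finCompHom_diagG]

theorem finCompHom_dKF468_notMem {M : ℕ} (k : K) {v : HeightOneSpectrum (𝓞 K)}
    (hv : v ∉ TMF468 K M) : finCompHom v (dKF468 M k) = 1 := by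
  rw [dKF468, finCompHom_cut_of_notMem _ _ hv]

/-- The finite part of the base point at the places dividing `M`. -/
def g1F468 (M : ℕ) (g₀ : G K) : G K := cut (TMF468 K M) False g₀

theorem infCompHom_g1F468 (M : ℕ) (g₀ : G K) (w : InfinitePlace K) :
    infCompHom w (g1F468 M g₀) = 1 :=
  infCompHom_cut_false _ _ _

theorem finCompHom_g1F468_mem {M : ℕ} (g₀ : G K) {v : HeightOneSpectrum (𝓞 K)}
    (hv : v ∈ TMF468 K M) : finCompHom v (g1F468 M g₀) = finCompHom v g₀ := by
  rw [g1F468, finCompHom_cut_of_mem _ _ hv]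

theorem finCompHom_g1F468_notMem {M : ℕ} (g₀ : G K) {v : HeightOneSpectrum (𝓞 K)}
    (hv : v ∉ TMF468 K M) : finCompHom v (g1F468 M g₀) = 1 := by
  rw [g1F468, finCompHom_cut_of_notMem _ _ hv]

/-- The conjugation property for the cut base point. -/
theorem LvlF468.conj1 {𝔫 : Ideal (𝓞 K)} {g₀ : G K} {M : ℕ} (hM : LvlF468 𝔫 g₀ M)
    (v : HeightOneSpectrum (𝓞 K)) (Y : GL (Fin 2) (v.adicCompletion K))
    (hY : Near v (v.valuation K (M : K)) Y) :
    LocLevel 𝔫 v ((finCompHom v (g1F468 M g₀))⁻¹ * Y * finCompHom v (g1F468 M g₀)) := by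
  by_cases hv : v ∈ TMF468 K M
  · rw [finCompHom_g1F468_mem g₀ hv]
    exact hM.conj v Y hY
  · rw [finCompHom_g1F468_notMem g₀ hv, inv_one, one_mul, mul_one]
    exact locLevel_of_near_nat v (hY.mono (valuation_le_of_dvd v hM.dvd))

/-! ## The transport lemma -/

theorem ratInf_utF468 {w : InfinitePlace K} (hw : w.IsComplex) {a : K} (c : K) (ha : a ≠ 0) :
    ratInf w (ut a c 1)
      = Matrix.GeneralLinearGroup.map (complexHom468 hw)
          (ut (w.embedding a) (w.embedding c) 1) := by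
  have ha' : w.embedding a ≠ 0 := by
    rwa [Ne, map_eq_zero]
  rw [map_ut _ _ ha' one_ne_zero, ratInf, map_ut _ _ ha one_ne_zero, map_one, map_one,
    complexHom468_embedding, complexHom468_embedding]

/-- **Transport over `K`.**  Left invariance under `[[a, c], [0, 1]] ∈ GL₂(K)`, right invariance
under the level group and under `U(2)` at `w`. -/
theorem transportF468 {π : HeckeEigensystem K ℂ} {φ : G K → ℂ} (hφ : IsSph0CuspFormFor π φ)
    {w : InfinitePlace K} (hw : w.IsComplex) (huniq : ∀ w' : InfinitePlace K, w' = w)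
    (M : ℕ) (g₀ : G K) {a : K} (c : K) (ha : a ≠ 0) (x' : ℂ) {y' : ℝ} (hy' : y' ≠ 0)
    (k k' : K) (h : G K) (hinf : ∀ w' : InfinitePlace K, infCompHom w' h = 1)
    (hfin : ∀ v : HeightOneSpectrum (𝓞 K), LocLevel π.level v
      ((finCompHom v (g1F468 M g₀))⁻¹ *
        ((finCompHom v (dKF468 M k'))⁻¹ * (ratFin v (ut a c 1))⁻¹ * finCompHom v (dKF468 M k)) *
        finCompHom v (g1F468 M g₀) * finCompHom v h)) :
    φ (bC468 hw (w.embedding a * x' + w.embedding c) (‖w.embedding a‖ * y') *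
          dKF468 M k * g1F468 M g₀ * h)
      = φ (bC468 hw x' y' * dKF468 M k' * g1F468 M g₀) := by
  have ha' : w.embedding a ≠ 0 := by
    rwa [Ne, map_eq_zero]
  have hn0 : ‖w.embedding a‖ ≠ 0 := norm_ne_zero_iff.2 ha'
  have hnC : ((‖w.embedding a‖ : ℝ) : ℂ) ≠ 0 := by exact_mod_cast hn0
  have hyC : ((y' : ℝ) : ℂ) ≠ 0 := by exact_mod_cast hy'
  set u : ℂ := ((‖w.embedding a‖ : ℝ) : ℂ) / w.embedding a with hu
  have hu0 : u ≠ 0 := div_ne_zero hnC ha'
  have huu : u * (starRingEnd ℂ) u = 1 := by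
    rw [hu, map_div₀, Complex.conj_ofReal, div_mul_div_comm, Complex.mul_conj,
      Complex.normSq_eq_norm_sq]
    push_cast
    field_simp
  rw [← hφ.arch_compact w (kC468 hw u) (isArchCompact_kC468 hw huu)
    (bC468 hw x' y' * dKF468 M k' * g1F468 M g₀)]
  refine phi_congr hφ.left_inv hφ.level_inv (ut a c 1) _ _ (fun w' => ?_) (fun v => ?_)
  · obtain rfl : w' = w := huniq w'
    rw [map_mul, map_mul, map_mul, map_mul, map_mul, map_mul, hinf, infCompHom_dKF468,
      infCompHom_dKF468, infCompHom_g1F468, bC468, bC468, kC468,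
      infCompHom_locC468, infCompHom_locC468, infCompHom_locC468, ratInf_utF468 hw c ha]
    simp only [mul_one]
    rw [← map_mul, ← map_mul]
    congr 1
    rw [ut_mul _ _ hyC one_ne_zero hu0 one_ne_zero,
      ut_mul _ _ ha' one_ne_zero (mul_ne_zero hyC hu0) (mul_ne_zero one_ne_zero one_ne_zero)]
    congr 1
    · rw [hu]
      push_cast
      field_simp
    · ring
    · ring
  · rw [map_mul, map_mul, map_mul, map_mul, map_mul, map_mul, bC468, bC468, kC468,
      finCompHom_locC468, finCompHom_locC468, finCompHom_locC468]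
    have e : (1 * finCompHom v (dKF468 M k') * finCompHom v (g1F468 M g₀) * 1)⁻¹ *
          (ratFin v (ut a c 1))⁻¹ *
          (1 * finCompHom v (dKF468 M k) * finCompHom v (g1F468 M g₀) * finCompHom v h)
        = (finCompHom v (g1F468 M g₀))⁻¹ *
          ((finCompHom v (dKF468 M k'))⁻¹ * (ratFin v (ut a c 1))⁻¹ * finCompHom v (dKF468 M k)) *
          finCompHom v (g1F468 M g₀) * finCompHom v h := by
      group
    rw [e]
    exact hfin v

/-! ## The local condition at the places where `h` is trivial -/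

/-- The local condition of `transportF468` at a place where `a` is a unit. -/
theorem near_dKF468 {M : ℕ} (v : HeightOneSpectrum (𝓞 K)) {a : K} (c : K) {k k' : K}
    (hk : v ∈ TMF468 K M → v.valuation K k = 1) (hk' : v ∈ TMF468 K M → v.valuation K k' = 1)
    (hva : v.valuation K a = 1)
    (h1 : v.valuation K (k - a * k') ≤ v.valuation K (M : K))
    (h2 : v.valuation K (1 - a) ≤ 1)
    (hc : v.valuation K c ≤ v.valuation K (M : K)) :
    Near v (v.valuation K (M : K))
      ((finCompHom v (dKF468 M k'))⁻¹ * (ratFin v (ut a c 1))⁻¹ * finCompHom v (dKF468 M k)) := by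
  have ha0 : a ≠ 0 := by
    intro h; rw [h, map_zero] at hva; exact zero_ne_one hva
  by_cases hv : v ∈ TMF468 K M
  · have hvk : v.valuation K k = 1 := hk hv
    have hvk' : v.valuation K k' = 1 := hk' hv
    have hk0 : k ≠ 0 := by
      intro h; rw [h, map_zero] at hvk; exact zero_ne_one hvk
    have hk'0 : k' ≠ 0 := by
      intro h; rw [h, map_zero] at hvk'; exact zero_ne_one hvk'
    have e : (ut k' 0 1)⁻¹ * (ut a c 1)⁻¹ * ut k 0 1
        = ut (k / (a * k')) (-(c / (a * k'))) 1 := by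
      rw [← mul_inv_rev, inv_mul_eq_iff_eq_mul, ut_mul _ _ ha0 one_ne_zero hk'0 one_ne_zero,
        ut_mul _ _ (mul_ne_zero ha0 hk'0) (mul_ne_zero one_ne_zero one_ne_zero)
          (div_ne_zero hk0 (mul_ne_zero ha0 hk'0)) one_ne_zero]
      congr 1
      · field_simp
      · field_simp
        ring
      · ring
    rw [finCompHom_dKF468_mem k hv, finCompHom_dKF468_mem k' hv, ← map_inv, ← map_inv,
      ← map_mul, ← map_mul, e]
    refine near_ratFin_ut ?_ (map_one _) ?_ ?_ ?_
    · rw [map_div₀, map_mul, hvk, hva, hvk', mul_one, div_one]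
    · have e2 : k / (a * k') - 1 = (k - a * k') / (a * k') := by
        field_simp
      rw [e2, map_div₀, map_mul, hva, hvk', mul_one, div_one]
      exact h1
    · rw [Valuation.map_neg, map_div₀, map_mul, hva, hvk', mul_one, div_one]
      exact hc
    · rw [sub_self, map_zero]
      exact zero_le
  · have e : (ut a c 1)⁻¹ = ut a⁻¹ (-(c / a)) 1 := by
      rw [ut_inv c ha0 one_ne_zero, mul_one, inv_one]
    rw [finCompHom_dKF468_notMem k hv, finCompHom_dKF468_notMem k' hv, inv_one, one_mul,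
      mul_one, ← map_inv, e]
    refine near_ratFin_ut ?_ (map_one _) ?_ ?_ ?_
    · rw [map_inv₀, hva, inv_one]
    · have e2 : a⁻¹ - 1 = (1 - a) / a := by
        field_simp
      rw [e2, map_div₀, hva, div_one, valuation_eq_one_of_notMemF468 hv]
      exact h2
    · rw [Valuation.map_neg, map_div₀, hva, div_one]
      exact hc
    · rw [sub_self, map_zero]
      exact zero_le

end Fermat.Agent.LT.T7.H468

end
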