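import Fermat.Agent.LT.T7.H468.HoroFBase

/-!
# Row LT, tower T7, node T7.13 `ThinC`, adelic half over `F`: the horocycle family
(helper468, OFF-MAIN)

`UF468 φ hw M g₀ κ x y = φ (b(x, y)_w · d(k) · g₁)`, `k` a representative of `κ⁻¹`; periodicity,
unit symmetry, the raw Hecke clauses at a principal prime, sum term, last term, the Hecke relation,
continuity.
-/

set_option autoImplicit false
set_option linter.unusedSectionVars false

open IsDedekindDomain NumberField AutomorphicForm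
open scoped MatrixGroups Classical WithZero

noncomputable section

namespace Fermat.Agent.LT.T7.H468

open Fermat.Agent.LT.H556.A0 Fermat.Agent.LT.T8.H864 Fermat.Agent.LT.H51.MS4

variable {K : Type} [Field K] [NumberField K]

/-! ## Valuations of the integers of `K` -/

theorem val_le_one468 (v : HeightOneSpectrum (𝓞 K)) (x : 𝓞 K) :
    v.valuation K (algebraMap (𝓞 K) K x) ≤ 1 := v.valuation_le_one x

theorem val_eq_one_iff468 (v : HeightOneSpectrum (𝓞 K)) (x : 𝓞 K) :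
    v.valuation K (algebraMap (𝓞 K) K x) = 1 ↔ x ∉ v.asIdeal := by
  rw [← v.valuation_lt_one_iff_mem (K := K), not_lt]
  exact ⟨fun h => h.ge, fun h => le_antisymm (val_le_one468 v x) h⟩

theorem natCast_eq_algebraMap468 (M : ℕ) :
    ((M : ℕ) : K) = algebraMap (𝓞 K) K ((M : ℕ) : 𝓞 K) := by
  rw [map_natCast]

theorem mem_TMF468_iff (M : ℕ) (v : HeightOneSpectrum (𝓞 K)) :
    v ∈ TMF468 K M ↔ ((M : ℕ) : 𝓞 K) ∈ v.asIdeal :=
  valuation_natCast_lt_one_iff v M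

theorem idM_le_of_mem468 {M : ℕ} {v : HeightOneSpectrum (𝓞 K)}
    (h : ((M : ℕ) : 𝓞 K) ∈ v.asIdeal) : idM468 K M ≤ v.asIdeal := by
  rw [idM468, Ideal.span_singleton_le_iff_mem]
  exact h

theorem val_le_of_mem_idM468 {M : ℕ} (v : HeightOneSpectrum (𝓞 K)) {x : 𝓞 K}
    (h : x ∈ idM468 K M) :
    v.valuation K (algebraMap (𝓞 K) K x) ≤ v.valuation K ((M : ℕ) : K) := by
  rw [idM468, Ideal.mem_span_singleton] at h
  obtain ⟨t, rfl⟩ := h
  rw [map_mul, map_mul, map_natCast]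
  exact mul_le_of_le_one_right' (val_le_one468 v t)

theorem notMem_of_isUnit_mk468 {M : ℕ} {v : HeightOneSpectrum (𝓞 K)}
    (hv : ((M : ℕ) : 𝓞 K) ∈ v.asIdeal) {k : 𝓞 K}
    (hk : IsUnit (Ideal.Quotient.mk (idM468 K M) k)) : k ∉ v.asIdeal := by
  intro hkv
  obtain ⟨b, hb⟩ := hk.exists_right_inv
  obtain ⟨t, rfl⟩ := Ideal.Quotient.mk_surjective b
  rw [← map_mul, ← map_one (Ideal.Quotient.mk (idM468 K M)), Ideal.Quotient.eq] at hb
  have h1 : k * t - 1 ∈ v.asIdeal := idM_le_of_mem468 hv hb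
  have h2 : (1 : 𝓞 K) ∈ v.asIdeal := by
    have := v.asIdeal.sub_mem (v.asIdeal.mul_mem_right t hkv) h1
    rwa [sub_sub_cancel] at this
  exact v.isPrime.ne_top ((Ideal.eq_top_iff_one _).2 h2)

/-! ## Representatives of the classes of units -/

/-- A representative of a class of units modulo `M`. -/
def repF468 (M : ℕ) (u : (𝓞 K ⧸ idM468 K M)ˣ) : 𝓞 K :=
  Classical.choose (Ideal.Quotient.mk_surjective (u : 𝓞 K ⧸ idM468 K M))

theorem mk_repF468 (M : ℕ) (u : (𝓞 K ⧸ idM468 K M)ˣ) :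
    Ideal.Quotient.mk (idM468 K M) (repF468 M u) = (u : 𝓞 K ⧸ idM468 K M) :=
  Classical.choose_spec (Ideal.Quotient.mk_surjective (u : 𝓞 K ⧸ idM468 K M))

theorem val_repF468 {M : ℕ} {v : HeightOneSpectrum (𝓞 K)} (hv : v ∈ TMF468 K M)
    (u : (𝓞 K ⧸ idM468 K M)ˣ) :
    v.valuation K (algebraMap (𝓞 K) K (repF468 M u)) = 1 := by
  rw [val_eq_one_iff468]
  refine notMem_of_isUnit_mk468 ((mem_TMF468_iff M v).1 hv) ?_
  rw [mk_repF468]
  exact u.isUnit

/-- Congruence of representatives: the valuation bound. -/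
theorem val_sub_le468 {M : ℕ} (v : HeightOneSpectrum (𝓞 K)) {x y : 𝓞 K}
    (h : Ideal.Quotient.mk (idM468 K M) x = Ideal.Quotient.mk (idM468 K M) y) :
    v.valuation K (algebraMap (𝓞 K) K x - algebraMap (𝓞 K) K y)
      ≤ v.valuation K ((M : ℕ) : K) := by
  rw [← map_sub]
  exact val_le_of_mem_idM468 v (Ideal.Quotient.eq.1 h)

/-! ## Principal primes -/

/-- The data of a principal prime `v = (ϖ)` not dividing `M`. -/
structure PrinAt468 (M : ℕ) (v : HeightOneSpectrum (𝓞 K)) (ϖ : 𝓞 K) : Prop where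
  gen : v.asIdeal = Ideal.span {ϖ}
  notMem : ((M : ℕ) : 𝓞 K) ∉ v.asIdeal

namespace PrinAt468

variable {M : ℕ} {v : HeightOneSpectrum (𝓞 K)} {ϖ : 𝓞 K} (P : PrinAt468 M v ϖ)

include P

theorem ne_zero : ϖ ≠ 0 := by
  rintro rfl
  apply v.ne_bot
  rw [P.gen]
  exact Ideal.span_singleton_eq_bot.2 rfl

theorem ne_zero' : algebraMap (𝓞 K) K ϖ ≠ 0 := by
  rw [Ne, FaithfulSMul.algebraMap_eq_zero_iff]
  exact P.ne_zero

theorem val : v.valuation K (algebraMap (𝓞 K) K ϖ) = WithZero.exp (-1 : ℤ) := by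
  rw [HeightOneSpectrum.valuation_of_algebraMap]
  exact HeightOneSpectrum.intValuation_singleton v P.ne_zero P.gen

theorem mem : ϖ ∈ v.asIdeal := by
  rw [P.gen]
  exact Ideal.mem_span_singleton_self ϖ

theorem notMem_TM : v ∉ TMF468 K M := fun h => P.notMem ((mem_TMF468_iff M v).1 h)

theorem val_M : v.valuation K ((M : ℕ) : K) = 1 := valuation_eq_one_of_notMemF468 P.notMem_TM

/-- `ϖ` is a unit at the other places. -/
theorem val_of_ne {v' : HeightOneSpectrum (𝓞 K)} (h : v' ≠ v) :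
    v'.valuation K (algebraMap (𝓞 K) K ϖ) = 1 := by
  rw [val_eq_one_iff468]
  intro hm
  apply h
  have hle : v.asIdeal ≤ v'.asIdeal := by
    rw [P.gen, Ideal.span_singleton_le_iff_mem]
    exact hm
  have hmax : v.asIdeal.IsMaximal := v.isMaximal
  have := hmax.eq_of_le v'.isPrime.ne_top hle
  exact (HeightOneSpectrum.ext this).symm

/-- `ϖ` is a unit modulo `M`. -/
theorem isUnit_mk : IsUnit (Ideal.Quotient.mk (idM468 K M) ϖ) := by
  have hmax : v.asIdeal.IsMaximal := v.isMaximal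
  have hsup : v.asIdeal ⊔ idM468 K M = ⊤ := by
    by_contra hne
    have h0 : v.asIdeal = v.asIdeal ⊔ idM468 K M := hmax.eq_of_le hne le_sup_left
    have h1 : idM468 K M ≤ v.asIdeal := by
      rw [h0]
      exact le_sup_right
    exact P.notMem (h1 (Ideal.mem_span_singleton_self _))
  have h1 : (1 : 𝓞 K) ∈ v.asIdeal ⊔ idM468 K M := by
    rw [hsup]
    exact Submodule.mem_top
  obtain ⟨a, ha, b, hb, hab⟩ := Submodule.mem_sup.1 h1
  rw [P.gen, Ideal.mem_span_singleton] at ha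
  obtain ⟨t, rfl⟩ := ha
  refine IsUnit.of_mul_eq_one (Ideal.Quotient.mk (idM468 K M) t) ?_
  rw [← map_mul, ← map_one (Ideal.Quotient.mk (idM468 K M)), Ideal.Quotient.eq]
  have : ϖ * t - 1 = -b := by
    rw [← hab]
    ring
  rw [this]
  exact (idM468 K M).neg_mem hb

end PrinAt468

/-! ## The raw Hecke clauses at a principal prime -/

/-- The two names of `[[a, b], [0, d]]`. -/
theorem triGL_eq_utF468 (a b d : K) : triGL a b d = ut a b d := by
  unfold triGL ut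
  split_ifs
  · rfl
  · rfl

theorem triAd_eq_locFinK_utF468 (v : HeightOneSpectrum (𝓞 K)) (a b d : K) :
    triAd v a b d = locFinK v (ut a b d) := by
  rw [triAd, triGL_eq_utF468]

theorem not_dvd_levelF468 {𝔫 : Ideal (𝓞 K)} {M : ℕ} (hM : Ideal.absNorm 𝔫 ∣ M)
    {v : HeightOneSpectrum (𝓞 K)} (hv : ((M : ℕ) : 𝓞 K) ∉ v.asIdeal) : ¬ v.asIdeal ∣ 𝔫 := by
  intro hd
  have h1 : ((Ideal.absNorm 𝔫 : ℕ) : 𝓞 K) ∈ v.asIdeal :=
    Ideal.le_of_dvd hd (Ideal.absNorm_mem 𝔫)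
  obtain ⟨t, rfl⟩ := hM
  apply hv
  rw [Nat.cast_mul]
  exact v.asIdeal.mul_mem_right _ h1

/-- The `S_v`-clause for the scalar `ϖ` at `v = (ϖ)`. -/
theorem heckeScalarF468 {π : HeckeEigensystem K ℂ} {φ : G K → ℂ}
    (hφ : IsSph0CuspFormFor π φ) {M : ℕ} (hM : Ideal.absNorm π.level ∣ M)
    {v : HeightOneSpectrum (𝓞 K)} {ϖ : 𝓞 K} (P : PrinAt468 M v ϖ) (g : G K) :
    φ (g * locFinK v (ut (algebraMap (𝓞 K) K ϖ) 0 (algebraMap (𝓞 K) K ϖ)))
      = π.b v * φ g := by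
  have key := (hφ.hecke v (not_dvd_levelF468 hM P.notMem)).2 _
    (isScalarUniformizerAt_triAd v P.val) g
  rw [triAd_eq_locFinK_utF468] at key
  exact key

/-- The `T_v`-clause on the explicit coset system with representatives `-M r`, `r ∈ R`. -/
theorem heckeSumF468 {π : HeckeEigensystem K ℂ} {φ : G K → ℂ}
    (hφ : IsSph0CuspFormFor π φ) {M : ℕ} (hM : Ideal.absNorm π.level ∣ M)
    {v : HeightOneSpectrum (𝓞 K)} {ϖ : 𝓞 K} (P : PrinAt468 M v ϖ)
    (R : Finset (𝓞 K)) (hcard : R.card = Ideal.absNorm v.asIdeal)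
    (hdist : ∀ r ∈ R, ∀ r' ∈ R, r ≠ r' → r - r' ∉ v.asIdeal) (g : G K) :
    ∑ r ∈ R, φ (g * locFinK v
        (ut (algebraMap (𝓞 K) K ϖ) (-(((M : ℕ) : K) * algebraMap (𝓞 K) K r)) 1))
      + φ (g * locFinK v (ut (1 : K) 0 (algebraMap (𝓞 K) K ϖ)))
    = ((Real.sqrt (Ideal.absNorm v.asIdeal : ℝ) : ℝ) : ℂ) * π.a v * φ g := by
  have hM0 : ((M : ℕ) : K) ≠ 0 := by
    intro h0
    have := P.val_M
    rw [h0, map_zero] at this
    exact zero_ne_one this
  set f : 𝓞 K → K := fun r => -(((M : ℕ) : K) * algebraMap (𝓞 K) K r) with hf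
  have hfinj : Function.Injective f := by
    intro r r' h
    have h1 : ((M : ℕ) : K) * algebraMap (𝓞 K) K r = ((M : ℕ) : K) * algebraMap (𝓞 K) K r' :=
      neg_injective h
    exact FaithfulSMul.algebraMap_injective (𝓞 K) K (mul_left_cancel₀ hM0 h1)
  have hsys : IsHeckeCosetSystem v (heckeSet v (algebraMap (𝓞 K) K ϖ) (R.image f)) := by
    refine isHeckeCosetSystem_heckeSet v P.val ?_ ?_ ?_
    · intro ρ hρ
      obtain ⟨r, -, rfl⟩ := Finset.mem_image.1 hρ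
      rw [hf]
      simp only
      rw [Valuation.map_neg, map_mul]
      exact mul_le_one' (valuation_natCast_le_one v M) (val_le_one468 v r)
    · rw [Finset.card_image_of_injective _ hfinj, hcard]
    · intro ρ hρ ρ' hρ' hne
      obtain ⟨r, hr, rfl⟩ := Finset.mem_image.1 hρ
      obtain ⟨r', hr', rfl⟩ := Finset.mem_image.1 hρ'
      have hrr : r ≠ r' := fun h => hne (by rw [h])
      have e : f r' - f r = ((M : ℕ) : K) * algebraMap (𝓞 K) K (r - r') := by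
        rw [hf, map_sub]
        ring
      rw [e, map_mul, P.val_M, one_mul, val_eq_one_iff468]
      exact hdist r hr r' hr' hrr
  have key := (hφ.hecke v (not_dvd_levelF468 hM P.notMem)).1 _ hsys g
  have hnot : triAd v 1 0 (algebraMap (𝓞 K) K ϖ) ∉
      (R.image f).image (fun ρ => triAd v (algebraMap (𝓞 K) K ϖ) ρ 1) := by
    intro hmem
    obtain ⟨ρ, -, hρ⟩ := Finset.mem_image.1 hmem
    exact lo_ne_up v P.val ρ hρ.symm
  have hinj1 : Function.Injective (fun ρ : K => triAd v (algebraMap (𝓞 K) K ϖ) ρ 1) :=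
    triAd_injective_mid v (by simpa using P.ne_zero')
  rw [heckeSet, Finset.sum_insert hnot, Finset.sum_image (fun _ _ _ _ h => hinj1 h),
    Finset.sum_image (fun _ _ _ _ h => hfinj h)] at key
  have e1 : φ (g * triAd v 1 0 (algebraMap (𝓞 K) K ϖ))
      = φ (g * locFinK v (ut (1 : K) 0 (algebraMap (𝓞 K) K ϖ))) := by
    rw [triAd_eq_locFinK_utF468]
  have e2 : ∑ r ∈ R, φ (g * triAd v (algebraMap (𝓞 K) K ϖ) (f r) 1)
      = ∑ r ∈ R, φ (g * locFinK v
          (ut (algebraMap (𝓞 K) K ϖ) (-(((M : ℕ) : K) * algebraMap (𝓞 K) K r)) 1)) := by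
    refine Finset.sum_congr rfl (fun r _ => ?_)
    rw [triAd_eq_locFinK_utF468]
  rw [e1, e2] at key
  rw [← key, add_comm]

/-! ## The horocycle family -/

/-- The horocycle family through (the finite part of) `g₀`, of level `M`. -/
def UF468 (φ : G K → ℂ) {w : InfinitePlace K} (hw : w.IsComplex) (M : ℕ) (g₀ : G K)
    (κ : (𝓞 K ⧸ idM468 K M)ˣ) (x : ℂ) (y : ℝ) : ℂ :=
  φ (bC468 hw x y * dKF468 M (algebraMap (𝓞 K) K (repF468 M κ⁻¹)) * g1F468 M g₀)

section Family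

variable {π : HeckeEigensystem K ℂ} {φ : G K → ℂ} (hφ : IsSph0CuspFormFor π φ)
  {w : InfinitePlace K} (hw : w.IsComplex) (huniq : ∀ w' : InfinitePlace K, w' = w)
  {g₀ : G K} {M : ℕ} (hM : LvlF468 π.level g₀ M)

include hφ huniq hM

/-- The local condition of `transportF468` at the place of `h = [[a, c], [0, 1]]_v`. -/
theorem hfin_atF468 {v : HeightOneSpectrum (𝓞 K)} (hv : v ∉ TMF468 K M) (a c : K) (k k' : K) :
    LocLevel π.level v
      ((finCompHom v (g1F468 M g₀))⁻¹ *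
        ((finCompHom v (dKF468 M k'))⁻¹ * (ratFin v (ut a c 1))⁻¹ *
          finCompHom v (dKF468 M k)) *
        finCompHom v (g1F468 M g₀) *
        finCompHom v (locFinK v (ut a c 1))) := by
  rw [finCompHom_g1F468_notMem g₀ hv, finCompHom_dKF468_notMem k hv,
    finCompHom_dKF468_notMem k' hv, finCompHom_locFinK_self, finCompHom_diagG]
  have e : (1 : GL (Fin 2) (v.adicCompletion K))⁻¹ *
      (1⁻¹ * (ratFin v (ut a c 1))⁻¹ * 1) * 1 *
        Matrix.GeneralLinearGroup.map (algebraMap K (v.adicCompletion K)) (ut a c 1)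
      = 1 := by
    rw [inv_one, one_mul, one_mul, mul_one, mul_one]
    exact inv_mul_cancel _
  rw [e]
  exact locLevel_one _ _

/-- The local condition of `transportF468` at the places different from the one of `h`. -/
theorem hfin_offF468 {v₀ v : HeightOneSpectrum (𝓞 K)} (hv : v ≠ v₀) {a : K} (c : K)
    (u u' : (𝓞 K ⧸ idM468 K M)ˣ)
    (hva : v.valuation K a = 1)
    (h1 : v.valuation K (algebraMap (𝓞 K) K (repF468 M u) - a * algebraMap (𝓞 K) K (repF468 M u'))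
      ≤ v.valuation K ((M : ℕ) : K))
    (h2 : v.valuation K (1 - a) ≤ 1)
    (hc : v.valuation K c ≤ v.valuation K ((M : ℕ) : K)) (γ : GL (Fin 2) K) :
    LocLevel π.level v
      ((finCompHom v (g1F468 M g₀))⁻¹ *
        ((finCompHom v (dKF468 M (algebraMap (𝓞 K) K (repF468 M u'))))⁻¹ *
          (ratFin v (ut a c 1))⁻¹ *
          finCompHom v (dKF468 M (algebraMap (𝓞 K) K (repF468 M u)))) *
        finCompHom v (g1F468 M g₀) *
        finCompHom v (locFinK v₀ γ)) := by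
  rw [locFinK_apply, finCompHom_locFin_of_ne hv, mul_one]
  exact hM.conj1 v _ (near_dKF468 v c (fun hv' => val_repF468 hv' u)
    (fun hv' => val_repF468 hv' u') hva h1 h2 hc)

/-- The local condition of `transportF468` when `h = 1`. -/
theorem hfin_oneF468 (v : HeightOneSpectrum (𝓞 K)) {a : K} (c : K)
    (u u' : (𝓞 K ⧸ idM468 K M)ˣ)
    (hva : v.valuation K a = 1)
    (h1 : v.valuation K (algebraMap (𝓞 K) K (repF468 M u) - a * algebraMap (𝓞 K) K (repF468 M u'))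
      ≤ v.valuation K ((M : ℕ) : K))
    (h2 : v.valuation K (1 - a) ≤ 1)
    (hc : v.valuation K c ≤ v.valuation K ((M : ℕ) : K)) :
    LocLevel π.level v
      ((finCompHom v (g1F468 M g₀))⁻¹ *
        ((finCompHom v (dKF468 M (algebraMap (𝓞 K) K (repF468 M u'))))⁻¹ *
          (ratFin v (ut a c 1))⁻¹ *
          finCompHom v (dKF468 M (algebraMap (𝓞 K) K (repF468 M u)))) *
        finCompHom v (g1F468 M g₀) *
        finCompHom v (1 : G K)) := by
  rw [map_one, mul_one]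
  exact hM.conj1 v _ (near_dKF468 v c (fun hv' => val_repF468 hv' u)
    (fun hv' => val_repF468 hv' u') hva h1 h2 hc)

/-- PERIOD. -/
theorem UF468_periodic (κ : (𝓞 K ⧸ idM468 K M)ˣ) (ω : 𝓞 K) (x : ℂ) (y : ℝ) (hy : 0 < y) :
    UF468 φ hw M g₀ κ (x + (M : ℂ) * w.embedding (algebraMap (𝓞 K) K ω)) y
      = UF468 φ hw M g₀ κ x y := by
  unfold UF468
  have hfin := fun v : HeightOneSpectrum (𝓞 K) =>
    hfin_oneF468 hφ huniq hM v (a := 1) (((M : ℕ) : K) * algebraMap (𝓞 K) K ω) κ⁻¹ κ⁻¹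
      (map_one _)
      (by rw [one_mul, sub_self, map_zero]; exact zero_le)
      (by rw [sub_self, map_zero]; exact zero_le)
      (by rw [map_mul]; exact mul_le_of_le_one_right' (val_le_one468 v ω))
  have key := transportF468 hφ hw huniq M g₀ (a := 1) (((M : ℕ) : K) * algebraMap (𝓞 K) K ω)
    one_ne_zero x hy.ne' _ _ 1 (fun w' => map_one _) hfin
  rw [map_one, one_mul, norm_one, one_mul, map_mul, map_natCast, mul_one] at key
  exact key

/-- SUM TERM. -/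
theorem UF468_sum_term {v : HeightOneSpectrum (𝓞 K)} {ϖ : 𝓞 K} (P : PrinAt468 M v ϖ)
    (κ : (𝓞 K ⧸ idM468 K M)ˣ) (x : ℂ) (y : ℝ) (hy : 0 < y) (r : 𝓞 K) :
    φ (bC468 hw x y * dKF468 M (algebraMap (𝓞 K) K (repF468 M κ⁻¹)) * g1F468 M g₀ *
        locFinK v (ut (algebraMap (𝓞 K) K ϖ) (-(((M : ℕ) : K) * algebraMap (𝓞 K) K r)) 1))
      = UF468 φ hw M g₀ (κ * clsF468 M ϖ)
          ((x + (M : ℂ) * w.embedding (algebraMap (𝓞 K) K r))
            / w.embedding (algebraMap (𝓞 K) K ϖ))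
          (y / ‖w.embedding (algebraMap (𝓞 K) K ϖ)‖) := by
  unfold UF468
  have hϖ0 := P.ne_zero'
  have hϖC : w.embedding (algebraMap (𝓞 K) K ϖ) ≠ 0 := by
    rwa [Ne, map_eq_zero]
  have hnϖ : ‖w.embedding (algebraMap (𝓞 K) K ϖ)‖ ≠ 0 := norm_ne_zero_iff.2 hϖC
  have hcong : Ideal.Quotient.mk (idM468 K M) (repF468 M κ⁻¹)
      = Ideal.Quotient.mk (idM468 K M) (ϖ * repF468 M (κ * clsF468 M ϖ)⁻¹) := by
    rw [map_mul, mk_repF468, mk_repF468, ← clsF468_coe P.isUnit_mk, ← Units.val_mul,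
      mul_inv_rev, mul_inv_cancel_left]
  have hfin : ∀ v' : HeightOneSpectrum (𝓞 K), LocLevel π.level v'
      ((finCompHom v' (g1F468 M g₀))⁻¹ *
        ((finCompHom v' (dKF468 M (algebraMap (𝓞 K) K (repF468 M (κ * clsF468 M ϖ)⁻¹))))⁻¹ *
          (ratFin v' (ut (algebraMap (𝓞 K) K ϖ)
            (-(((M : ℕ) : K) * algebraMap (𝓞 K) K r)) 1))⁻¹ *
          finCompHom v' (dKF468 M (algebraMap (𝓞 K) K (repF468 M κ⁻¹)))) *
        finCompHom v' (g1F468 M g₀) *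
        finCompHom v' (locFinK v (ut (algebraMap (𝓞 K) K ϖ)
            (-(((M : ℕ) : K) * algebraMap (𝓞 K) K r)) 1))) := by
    intro v'
    by_cases hv : v' = v
    · subst hv
      exact hfin_atF468 hφ huniq hM P.notMem_TM _ _ _ _
    · refine hfin_offF468 hφ huniq hM hv _ _ _ (P.val_of_ne hv) ?_ ?_ ?_ _
      · have := val_sub_le468 v' hcong
        rwa [map_mul] at this
      · rw [← map_one (algebraMap (𝓞 K) K), ← map_sub]
        exact val_le_one468 v' _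
      · rw [Valuation.map_neg, map_mul]
        exact mul_le_of_le_one_right' (val_le_one468 v' r)
  have key := transportF468 hφ hw huniq M g₀ (a := algebraMap (𝓞 K) K ϖ)
    (-(((M : ℕ) : K) * algebraMap (𝓞 K) K r)) hϖ0
    ((x + (M : ℂ) * w.embedding (algebraMap (𝓞 K) K r)) / w.embedding (algebraMap (𝓞 K) K ϖ))
    (y' := y / ‖w.embedding (algebraMap (𝓞 K) K ϖ)‖) (div_ne_zero hy.ne' hnϖ) _ _
    (locFinK v (ut (algebraMap (𝓞 K) K ϖ) (-(((M : ℕ) : K) * algebraMap (𝓞 K) K r)) 1))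
    (fun w' => by rw [locFinK_apply, infCompHom_locFin]) hfin
  have ex : w.embedding (algebraMap (𝓞 K) K ϖ) *
        ((x + (M : ℂ) * w.embedding (algebraMap (𝓞 K) K r))
          / w.embedding (algebraMap (𝓞 K) K ϖ))
        + w.embedding (-(((M : ℕ) : K) * algebraMap (𝓞 K) K r)) = x := by
    rw [map_neg, map_mul, map_natCast, mul_div_cancel₀ _ hϖC]
    ring
  have ey : ‖w.embedding (algebraMap (𝓞 K) K ϖ)‖ *
      (y / ‖w.embedding (algebraMap (𝓞 K) K ϖ)‖) = y := mul_div_cancel₀ _ hnϖ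
  rw [ex, ey] at key
  exact key

/-- LAST TERM. -/
theorem UF468_last_term {v : HeightOneSpectrum (𝓞 K)} {ϖ : 𝓞 K} (P : PrinAt468 M v ϖ)
    (κ : (𝓞 K ⧸ idM468 K M)ˣ) (x : ℂ) (y : ℝ) (hy : 0 < y) :
    φ (bC468 hw x y * dKF468 M (algebraMap (𝓞 K) K (repF468 M κ⁻¹)) * g1F468 M g₀ *
        locFinK v (ut (1 : K) 0 (algebraMap (𝓞 K) K ϖ)))
      = π.b v * UF468 φ hw M g₀ (κ * (clsF468 M ϖ)⁻¹)
          (w.embedding (algebraMap (𝓞 K) K ϖ) * x)
          (‖w.embedding (algebraMap (𝓞 K) K ϖ)‖ * y) := by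
  unfold UF468
  have hϖ0 := P.ne_zero'
  have hϖi0 : (algebraMap (𝓞 K) K ϖ)⁻¹ ≠ 0 := inv_ne_zero hϖ0
  have hϖC : w.embedding (algebraMap (𝓞 K) K ϖ) ≠ 0 := by
    rwa [Ne, map_eq_zero]
  have hnϖ : ‖w.embedding (algebraMap (𝓞 K) K ϖ)‖ ≠ 0 := norm_ne_zero_iff.2 hϖC
  have hcong : Ideal.Quotient.mk (idM468 K M) (ϖ * repF468 M κ⁻¹)
      = Ideal.Quotient.mk (idM468 K M) (repF468 M (κ * (clsF468 M ϖ)⁻¹)⁻¹) := by
    rw [map_mul, mk_repF468, mk_repF468, ← clsF468_coe P.isUnit_mk, ← Units.val_mul,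
      mul_inv_rev, inv_inv]
  have hsplit : ut (1 : K) 0 (algebraMap (𝓞 K) K ϖ)
      = ut (algebraMap (𝓞 K) K ϖ)⁻¹ 0 1
        * ut (algebraMap (𝓞 K) K ϖ) 0 (algebraMap (𝓞 K) K ϖ) := by
    rw [ut_mul _ _ hϖi0 one_ne_zero hϖ0 hϖ0, inv_mul_cancel₀ hϖ0, mul_zero, zero_mul, add_zero,
      one_mul]
  rw [hsplit, map_mul, ← mul_assoc, heckeScalarF468 hφ hM.dvd P]
  congr 1
  have hfin : ∀ v' : HeightOneSpectrum (𝓞 K), LocLevel π.level v'
      ((finCompHom v' (g1F468 M g₀))⁻¹ *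
        ((finCompHom v'
            (dKF468 M (algebraMap (𝓞 K) K (repF468 M (κ * (clsF468 M ϖ)⁻¹)⁻¹))))⁻¹ *
          (ratFin v' (ut (algebraMap (𝓞 K) K ϖ)⁻¹ 0 1))⁻¹ *
          finCompHom v' (dKF468 M (algebraMap (𝓞 K) K (repF468 M κ⁻¹)))) *
        finCompHom v' (g1F468 M g₀) *
        finCompHom v' (locFinK v (ut (algebraMap (𝓞 K) K ϖ)⁻¹ 0 1))) := by
    intro v'
    by_cases hv : v' = v
    · subst hv
      exact hfin_atF468 hφ huniq hM P.notMem_TM _ _ _ _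
    · have hvϖ : v'.valuation K (algebraMap (𝓞 K) K ϖ) = 1 := P.val_of_ne hv
      refine hfin_offF468 hφ huniq hM hv _ _ _ ?_ ?_ ?_ ?_ _
      · rw [map_inv₀, hvϖ, inv_one]
      · have e : algebraMap (𝓞 K) K (repF468 M κ⁻¹)
              - (algebraMap (𝓞 K) K ϖ)⁻¹
                * algebraMap (𝓞 K) K (repF468 M (κ * (clsF468 M ϖ)⁻¹)⁻¹)
            = (algebraMap (𝓞 K) K (ϖ * repF468 M κ⁻¹)
                - algebraMap (𝓞 K) K (repF468 M (κ * (clsF468 M ϖ)⁻¹)⁻¹))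
              / algebraMap (𝓞 K) K ϖ := by
          rw [map_mul]
          field_simp
        rw [e, map_div₀, hvϖ, div_one]
        exact val_sub_le468 v' hcong
      · have e : (1 : K) - (algebraMap (𝓞 K) K ϖ)⁻¹
            = (algebraMap (𝓞 K) K (ϖ - 1)) / algebraMap (𝓞 K) K ϖ := by
          rw [map_sub, map_one]
          field_simp
        rw [e, map_div₀, hvϖ, div_one]
        exact val_le_one468 v' _
      · rw [map_zero]
        exact zero_le
  have key := transportF468 hφ hw huniq M g₀ (a := (algebraMap (𝓞 K) K ϖ)⁻¹) 0 hϖi0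
    (w.embedding (algebraMap (𝓞 K) K ϖ) * x)
    (y' := ‖w.embedding (algebraMap (𝓞 K) K ϖ)‖ * y) (mul_ne_zero hnϖ hy.ne') _ _
    (locFinK v (ut (algebraMap (𝓞 K) K ϖ)⁻¹ 0 1))
    (fun w' => by rw [locFinK_apply, infCompHom_locFin]) hfin
  have ex : w.embedding (algebraMap (𝓞 K) K ϖ)⁻¹ * (w.embedding (algebraMap (𝓞 K) K ϖ) * x)
      + w.embedding 0 = x := by
    rw [map_zero, add_zero, map_inv₀, inv_mul_cancel_left₀ hϖC]
  have ey : ‖w.embedding (algebraMap (𝓞 K) K ϖ)⁻¹‖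
      * (‖w.embedding (algebraMap (𝓞 K) K ϖ)‖ * y) = y := by
    rw [map_inv₀, norm_inv, inv_mul_cancel_left₀ hnϖ]
  rw [ex, ey] at key
  exact key

/-- The Hecke relation, function form. -/
theorem UF468_hecke {v : HeightOneSpectrum (𝓞 K)} {ϖ : 𝓞 K} (P : PrinAt468 M v ϖ)
    (R : Finset (𝓞 K)) (hcard : R.card = Ideal.absNorm v.asIdeal)
    (hdist : ∀ r ∈ R, ∀ r' ∈ R, r ≠ r' → r - r' ∉ v.asIdeal)
    (κ : (𝓞 K ⧸ idM468 K M)ˣ) (x : ℂ) (y : ℝ) (hy : 0 < y) :
    ∑ r ∈ R, UF468 φ hw M g₀ (κ * clsF468 M ϖ)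
          ((x + (M : ℂ) * w.embedding (algebraMap (𝓞 K) K r))
            / w.embedding (algebraMap (𝓞 K) K ϖ))
          (y / ‖w.embedding (algebraMap (𝓞 K) K ϖ)‖)
        + π.b v * UF468 φ hw M g₀ (κ * (clsF468 M ϖ)⁻¹)
            (w.embedding (algebraMap (𝓞 K) K ϖ) * x)
            (‖w.embedding (algebraMap (𝓞 K) K ϖ)‖ * y)
      = ((Real.sqrt (Ideal.absNorm v.asIdeal : ℝ) : ℝ) : ℂ) * π.a v * UF468 φ hw M g₀ κ x y := by
  have key := heckeSumF468 hφ hM.dvd P R hcard hdist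
    (bC468 hw x y * dKF468 M (algebraMap (𝓞 K) K (repF468 M κ⁻¹)) * g1F468 M g₀)
  rw [UF468_last_term hφ hw huniq hM P κ x y hy,
    Finset.sum_congr rfl (fun r _ => UF468_sum_term hφ hw huniq hM P κ x y hy r)] at key
  exact key

/-- CONTINUITY. -/
theorem UF468_cont (κ : (𝓞 K ⧸ idM468 K M)ˣ) :
    ContinuousOn (fun p : ℂ × ℝ => UF468 φ hw M g₀ κ p.1 p.2) {p : ℂ × ℝ | 0 < p.2} := by
  have h := continuousOn_comp_bC468 (K := K) hw hφ.cont
    (dKF468 M (algebraMap (𝓞 K) K (repF468 M κ⁻¹)) * g1F468 M g₀)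
  refine (h.mono (fun p hp => (ne_of_gt hp : p.2 ≠ 0))).congr (fun p _ => ?_)
  unfold UF468
  rw [mul_assoc]

end Family

end Fermat.Agent.LT.T7.H468

end
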